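import Fermat.Agent.S44.Cover.Main

/-!
# S44 / Cover / Span : Galois descent for subspaces of `ℚ̄((q))`, to a FIXED field `K₀`

`Γ = Gal(ℚ̄/K₀)` acts coefficientwise.  `Stable K₀ V` : `V ⊆ ℚ̄((q))` is a `ℚ̄`-subspace stable under `Γ`.
`FinCoeff K₀ a` : the coefficients of `a` lie in a finite dimensional `K₀`-subspace `U` of `ℚ̄`.

* `exists_coords` : `u` a `K₀`-basis of `U` (`Module.finBasis K₀ U`), `ψ_j : ℚ̄ →ₗ[K₀] K₀` an extension of the `j`-th coordinate (`LinearMap.exists_extend`),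
  `x_j := a.map ψ_j` (`HahnSeries.map`).  `g (a_n) = g (∑ ψ_j(a_n) u_j) = ∑ ψ_j(a_n) g(u_j)`.  Coefficients: `HahnSeries.coeff_sum`?, `HahnSeries.C_mul_eq_smul`/`coeff_mul_C`-type lemma
  (`HahnSeries.C_apply`, `HahnSeries.coeff_single_mul`, `zero_add`/`sub_zero`).
* `span_conj_eq_top` : if not, `Submodule.exists_le_ker_of_lt_top` gives `f ≠ 0` killing all `(g u_j)_j`; `c_j := f (Pi.single j 1)`: `∑ c_j g(u_j) = 0` for all `g ∈ Γ`.
  ARTIN: `FixedPoints.linearIndependent_smul_of_linearIndependent` (Mathlib/FieldTheory/Fixed.lean) for `G := K₀.fixingSubgroup` acting on `Qb`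
  (`FixedPoints.subfield G Qb` has the same elements as `K₀` by `mem_of_fixed`), or by hand: take a relation with minimal support, normalise one `c_{j₀} = 1`, apply `h ∈ Γ`
  (`∑ h(c_j) (h g)(u_j) = 0`, and `h g` runs over `Γ`), subtract: shorter, so `h c_j = c_j`, `c_j ∈ K₀` (`mem_of_fixed`), and `g = 1` contradicts `hu`.
* `span_fixed` : `P v := V (∑ j, C (v j) * bc (x j))` holds on the span (`Submodule.span_induction`), so for `Pi.single j 1`.
* `invK_descent` : write `a_i = ∑ C(c_ij) bc(x_ij)`, `b_i = ∑ C(d_ij') bc(y_ij')`; `1 = ∑ C(c d) bc(x y)`.  `φ : ℚ̄ →ₗ[K₀] K₀` with `φ 1 = 1`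
  (`LinearMap.exists_leftInverse_of_injective` for `(Algebra.linearMap K₀ Qb)` / `K₀.val.toLinearMap`), apply `φ` to each coefficient: `1 = ∑ C(φ(c d)) * (x y)` in `K₀((q))`.
  `a'_l := C(φ(c d)) * x`, `b'_l := y`.  Reindex by `Fintype.equivFin`.
-/

set_option autoImplicit false

open AlgebraicCurve ModularCurve IntermediateField

namespace Fermat.Agent.S44.Cover

open Fermat.Agent.ES Fermat.Agent.Crux

variable {K₀ : IntermediateField ℚ Qb}

/-- a `Γ`-stable `ℚ̄`-subspace of `ℚ̄((q))`. -/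
structure Stable (K₀ : IntermediateField ℚ Qb) (V : LL → Prop) : Prop where
  zero : V 0
  add : ∀ x y, V x → V y → V (x + y)
  smul : ∀ (c : Qb) (x : LL), V x → V (HahnSeries.C c * x)
  gal : ∀ g : GQ, (∀ c ∈ K₀, g c = c) → ∀ x, V x → V (gact g x)

/-- the coefficients lie in a finite dimensional `K₀`-subspace of `ℚ̄`. -/
def FinCoeff (K₀ : IntermediateField ℚ Qb) (a : LL) : Prop :=
  ∃ U : Submodule K₀ Qb, FiniteDimensional K₀ U ∧ ∀ n, a.coeff n ∈ U

/-! ### TASK S44/Cover-Span-a -/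

theorem finCoeff_zero : FinCoeff K₀ 0 := by
  exact ⟨⊥, inferInstance, fun n => by simp⟩

theorem FinCoeff.add {a b : LL} (ha : FinCoeff K₀ a) (hb : FinCoeff K₀ b) : FinCoeff K₀ (a + b) := by
  obtain ⟨U, hU, hUa⟩ := ha
  obtain ⟨U', hU', hUb⟩ := hb
  refine ⟨U ⊔ U', Submodule.finiteDimensional_sup U U', fun n => ?_⟩
  rw [HahnSeries.coeff_add]
  exact add_mem (Submodule.mem_sup_left (hUa n)) (Submodule.mem_sup_right (hUb n))

theorem FinCoeff.sum {ι : Type*} (s : Finset ι) (a : ι → LL) (ha : ∀ i ∈ s, FinCoeff K₀ (a i)) :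
    FinCoeff K₀ (∑ i ∈ s, a i) := by
  classical
  induction s using Finset.induction_on with
  | empty => simpa using finCoeff_zero
  | insert i s hi ih =>
    rw [Finset.sum_insert hi]
    exact (ha i (Finset.mem_insert_self _ _)).add
      (ih fun j hj => ha j (Finset.mem_insert_of_mem hj))

/-- `HahnSeries.coeff_mul`: the coefficient is a finite sum of `(x_j : K₀) • a_i`. -/
theorem FinCoeff.mul_bc {a : LL} (ha : FinCoeff K₀ a) (x : LaurentSeries K₀) :
    FinCoeff K₀ (a * bc K₀ x) := by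
  obtain ⟨U, hU, hUa⟩ := ha
  refine ⟨U, hU, fun n => ?_⟩
  rw [HahnSeries.coeff_mul]
  refine Submodule.sum_mem _ fun ij _ => ?_
  have h1 : a.coeff ij.1 * (bc K₀ x).coeff ij.2 = (x.coeff ij.2) • a.coeff ij.1 := by
    rw [coeffMap_coeff, Algebra.smul_def, mul_comm]
  rw [h1]
  exact U.smul_mem _ (hUa _)

/-- `SS.GM2.exists_field N ∅ {f}` : `f` has coefficients in a number field `K₁`; `U := span K₀` of a finite `ℚ`-basis of `K₁`. -/
theorem finCoeff_FF (N : ℕ) [NeZero N] (f : FF N) : FinCoeff K₀ (f : LL) := by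
  classical
  obtain ⟨K₁, hfd, -, -, hS⟩ := SS.GM2.exists_field N ∅ {f}
  obtain ⟨u, -, hu⟩ := hS f (Finset.mem_singleton_self f)
  refine ⟨Submodule.span K₀ (K₁ : Set Qb), ?_, fun n => ?_⟩
  · have hfg : (K₁.toSubalgebra.toSubmodule).FG := by
      rw [← Module.Finite.iff_fg]
      exact hfd
    obtain ⟨s, hs⟩ := hfg
    have h1 : Submodule.span K₀ (K₁ : Set Qb) = Submodule.span K₀ (s : Set Qb) := by
      apply le_antisymm
      · rw [Submodule.span_le]
        intro x hx
        have hx' : x ∈ Submodule.span ℚ (s : Set Qb) := by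
          rw [hs]
          exact hx
        exact Submodule.span_le_restrictScalars ℚ K₀ _ hx'
      · apply Submodule.span_mono
        intro x hx
        have h2 : x ∈ Submodule.span ℚ (s : Set Qb) := Submodule.subset_span hx
        rw [hs] at h2
        exact h2
    rw [h1]
    exact FiniteDimensional.span_finset K₀ s
  · rw [← hu]
    exact Submodule.subset_span (u.coeff n).2

theorem finCoeff_adjoin {N p : ℕ} [NeZero N] (hp : p.Prime) (t₀ : LaurentSeries K₀) (W : FF N)
    (ht : (bc K₀ t₀) ^ p = (W : LL)) (x : LL) (hx : x ∈ (FF N)⟮bc K₀ t₀⟯) : FinCoeff K₀ x := by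
  obtain ⟨a, rfl⟩ := exists_repr' hp _ W ht x hx
  refine FinCoeff.sum _ _ fun i _ => ?_
  rw [← map_pow]
  exact (finCoeff_FF N (a i)).mul_bc _

/-! ### TASK S44/Cover-Span-b -/

theorem exists_coords (a : LL) (h : FinCoeff K₀ a) :
    ∃ (n : ℕ) (u : Fin n → Qb) (x : Fin n → LaurentSeries K₀), LinearIndependent K₀ u ∧
      ∀ g : GQ, (∀ c ∈ K₀, g c = c) → gact g a = ∑ j, HahnSeries.C (g (u j)) * bc K₀ (x j) := by
  obtain ⟨U, hU, hUa⟩ := h
  set b := Module.finBasis K₀ U with hb
  choose ψ hψ using fun j => LinearMap.exists_extend (b.coord j)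
  refine ⟨Module.finrank K₀ U, fun j => (b j : Qb), fun j => a.map (ψ j), ?_, ?_⟩
  · exact b.linearIndependent.map' U.subtype (Submodule.ker_subtype U)
  · intro g hg
    ext m
    rw [gact_coeff, HahnSeries.coeff_sum]
    have h1 : a.coeff m = ∑ j, ((ψ j (a.coeff m) : K₀) : Qb) * (b j : Qb) := by
      have h2 := congrArg (Subtype.val) (b.sum_repr ⟨a.coeff m, hUa m⟩)
      rw [AddSubmonoidClass.coe_finsetSum] at h2
      refine (show a.coeff m = ((⟨a.coeff m, hUa m⟩ : U) : Qb) from rfl).trans (h2.symm.trans ?_)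
      refine Finset.sum_congr rfl fun j _ => ?_
      have h3 : ψ j (a.coeff m) = b.repr ⟨a.coeff m, hUa m⟩ j := by
        have := LinearMap.congr_fun (hψ j) ⟨a.coeff m, hUa m⟩
        simpa using this
      rw [h3]
      rfl
    conv_lhs => rw [h1]
    rw [map_sum]
    refine Finset.sum_congr rfl fun j _ => ?_
    rw [HahnSeries.C_mul_eq_smul, HahnSeries.coeff_smul, coeffMap_coeff, map_mul,
      hg _ (ψ j (a.coeff m)).2, smul_eq_mul, mul_comm]
    rfl

/-! ### TASK S44/Cover-Span-c -/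

theorem SpanC_aux (n : ℕ) (u : Fin n → Qb) (hu : LinearIndependent K₀ u) (c : Fin n → Qb)
    (hc : ∀ g : GQ, (∀ x ∈ K₀, g x = x) → ∑ j, c j * g (u j) = 0) : c = 0 := by
  classical
  let G := K₀.fixingSubgroup
  have hG : ∀ g : G, ∀ x ∈ K₀, (g : GQ) x = x := fun g x hx =>
    (IntermediateField.mem_fixingSubgroup_iff K₀ (g : GQ)).1 g.2 x hx
  have hu' : LinearIndependent (FixedPoints.subfield G Qb) u := by
    rw [Fintype.linearIndependent_iff]
    intro a ha i
    have hmem : ∀ j, ((a j : FixedPoints.subfield G Qb) : Qb) ∈ K₀ := by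
      intro j
      apply mem_of_fixed
      intro g hg
      exact (a j).2 ⟨g, (IntermediateField.mem_fixingSubgroup_iff K₀ g).2 hg⟩
    have := Fintype.linearIndependent_iff.1 hu (fun j => ⟨a j, hmem j⟩) (by
      simpa [Subfield.smul_def, IntermediateField.smul_def] using ha) i
    apply Subtype.ext
    simpa using congrArg Subtype.val this
  let s : Finset Qb := Finset.univ.image u
  have hs : (s : Set Qb) = Set.range u := by simp [s]
  have h1 : LinearIndependent (FixedPoints.subfield G Qb) fun i : (s : Set Qb) => (i : Qb) :=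
    hu'.linearIndepOn_id' hs.symm
  have h2 := FixedPoints.linearIndependent_smul_of_linearIndependent G Qb h1
  have h3 : LinearIndependent Qb (fun j => MulAction.toFun G Qb (u j)) :=
    h2.comp (fun j => (⟨u j, by rw [hs]; exact ⟨j, rfl⟩⟩ : (s : Set Qb))) (by
      intro i j hij
      exact hu.injective (congrArg Subtype.val hij))
  have h4 := Fintype.linearIndependent_iff.1 h3 c (by
    funext g
    simp only [Finset.sum_apply, Pi.smul_apply, MulAction.toFun_apply, smul_eq_mul, Pi.zero_apply]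
    exact hc g (hG g))
  exact funext h4

theorem span_conj_eq_top (n : ℕ) (u : Fin n → Qb) (hu : LinearIndependent K₀ u) :
    Submodule.span Qb {v : Fin n → Qb | ∃ g : GQ, (∀ c ∈ K₀, g c = c) ∧ v = fun j => g (u j)}
      = ⊤ := by
  classical
  by_contra h
  obtain ⟨f, hf0, hf⟩ := Submodule.exists_le_ker_of_lt_top _ (lt_top_iff_ne_top.2 h)
  apply hf0
  have hc := SpanC_aux n u hu (fun j => f (fun k => if j = k then 1 else 0)) (by
    intro g hg
    have h1 : (fun j => g (u j)) ∈ LinearMap.ker f := hf (Submodule.subset_span ⟨g, hg, rfl⟩)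
    rw [LinearMap.mem_ker, LinearMap.pi_apply_eq_sum_univ] at h1
    simpa [mul_comm] using h1)
  apply LinearMap.ext
  intro v
  rw [LinearMap.pi_apply_eq_sum_univ]
  simp only [LinearMap.zero_apply]
  exact Finset.sum_eq_zero fun j _ => by rw [congrFun hc j]; simp

/-! ### TASK S44/Cover-Span-d -/

theorem span_fixed {V : LL → Prop} (hV : Stable K₀ V) (a : LL) (ha : V a) (hfin : FinCoeff K₀ a) :
    ∃ (n : ℕ) (u : Fin n → Qb) (x : Fin n → LaurentSeries K₀), (∀ j, V (bc K₀ (x j))) ∧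
      a = ∑ j, HahnSeries.C (u j) * bc K₀ (x j) := by
  classical
  obtain ⟨n, u, x, hu, hx⟩ := exists_coords a hfin
  have hP : ∀ v ∈ Submodule.span Qb
      {v : Fin n → Qb | ∃ g : GQ, (∀ c ∈ K₀, g c = c) ∧ v = fun j => g (u j)},
      V (∑ j, HahnSeries.C (v j) * bc K₀ (x j)) := by
    intro v hv
    induction hv using Submodule.span_induction with
    | mem v hv =>
      obtain ⟨g, hg, rfl⟩ := hv
      rw [← hx g hg]
      exact hV.gal g hg a ha
    | zero => simpa using hV.zero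
    | add v w _ _ h1 h2 =>
      have := hV.add _ _ h1 h2
      rw [← Finset.sum_add_distrib] at this
      simpa [add_mul] using this
    | smul c v _ h1 =>
      have := hV.smul c _ h1
      rw [Finset.mul_sum] at this
      have h2 : ∑ j, HahnSeries.C ((c • v) j) * bc K₀ (x j)
          = ∑ j, HahnSeries.C c * (HahnSeries.C (v j) * bc K₀ (x j)) := by
        refine Finset.sum_congr rfl fun j _ => ?_
        rw [Pi.smul_apply, smul_eq_mul, map_mul, mul_assoc]
      rw [h2]
      exact this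
  refine ⟨n, u, x, fun j => ?_, ?_⟩
  · have := hP (Pi.single j 1) (by rw [span_conj_eq_top n u hu]; exact Submodule.mem_top)
    rw [Finset.sum_eq_single j] at this
    · simpa using this
    · intro k _ hk
      rw [Pi.single_eq_of_ne hk]
      simp
    · intro h
      exact absurd (Finset.mem_univ j) h
  · have := hx 1 (fun _ _ => rfl)
    have h1 : gact 1 a = a := by
      ext m
      simp [gact, coeffMap_coeff]
    rw [h1] at this
    simpa using this

/-! ### TASK S44/Cover-Span-e -/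

theorem invK_descent {V V' : LL → Prop} (hV : Stable K₀ V) (hV' : Stable K₀ V') (r : ℕ)
    (a b : Fin r → LL) (ha : ∀ i, V (a i)) (hb : ∀ i, V' (b i)) (hfa : ∀ i, FinCoeff K₀ (a i))
    (hfb : ∀ i, FinCoeff K₀ (b i)) (hsum : ∑ i, a i * b i = 1) :
    ∃ (s : ℕ) (a' b' : Fin s → LaurentSeries K₀), (∀ l, V (bc K₀ (a' l))) ∧
      (∀ l, V' (bc K₀ (b' l))) ∧ ∑ l, a' l * b' l = 1 := by
  classical
  choose n u x hx hax using fun i => span_fixed hV (a i) (ha i) (hfa i)
  choose m w y hy hby using fun i => span_fixed hV' (b i) (hb i) (hfb i)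
  obtain ⟨φ, hφ⟩ : ∃ φ : Qb →ₗ[K₀] K₀, ∀ c : K₀, φ (algebraMap K₀ Qb c) = c := by
    obtain ⟨φ, hφ⟩ := LinearMap.exists_leftInverse_of_injective (Algebra.linearMap K₀ Qb)
      (LinearMap.ker_eq_bot.2 (algebraMap K₀ Qb).injective)
    exact ⟨φ, fun c => LinearMap.congr_fun hφ c⟩
  have hsumT : ∑ l : (Σ i : Fin r, Fin (n i) × Fin (m i)),
      HahnSeries.C (u l.1 l.2.1 * w l.1 l.2.2) * bc K₀ (x l.1 l.2.1 * y l.1 l.2.2) = 1 := by
    rw [← hsum, Fintype.sum_sigma]
    refine Finset.sum_congr rfl fun i _ => ?_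
    rw [Fintype.sum_prod_type]
    conv_rhs => rw [hax i, hby i, Finset.sum_mul_sum]
    refine Finset.sum_congr rfl fun j _ => Finset.sum_congr rfl fun j' _ => ?_
    rw [map_mul, map_mul]
    ring
  have key : ∑ l : (Σ i : Fin r, Fin (n i) × Fin (m i)),
      (HahnSeries.C (φ (u l.1 l.2.1 * w l.1 l.2.2)) * x l.1 l.2.1) * y l.1 l.2.2 = 1 := by
    ext k : 2
    have h1 := congrArg (fun s : LL => φ (s.coeff k)) hsumT
    beta_reduce at h1
    rw [HahnSeries.coeff_sum, map_sum] at h1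
    rw [HahnSeries.coeff_sum]
    have h2 : (1 : LL).coeff k = algebraMap K₀ Qb ((1 : LaurentSeries K₀).coeff k) := by
      rw [← coeffMap_coeff, map_one]
    rw [h2, hφ] at h1
    rw [← h1]
    refine Finset.sum_congr rfl fun l _ => ?_
    rw [mul_assoc, HahnSeries.C_mul_eq_smul, HahnSeries.coeff_smul, HahnSeries.C_mul_eq_smul,
      HahnSeries.coeff_smul, coeffMap_coeff, smul_eq_mul, smul_eq_mul,
      mul_comm (u _ _ * w _ _), ← Algebra.smul_def, map_smul, smul_eq_mul, mul_comm]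
  obtain ⟨e⟩ : Nonempty ((Σ i : Fin r, Fin (n i) × Fin (m i)) ≃
    Fin (Fintype.card (Σ i : Fin r, Fin (n i) × Fin (m i)))) := ⟨Fintype.equivFin _⟩
  refine ⟨Fintype.card (Σ i : Fin r, Fin (n i) × Fin (m i)),
    fun k => HahnSeries.C (φ (u (e.symm k).1 (e.symm k).2.1 * w (e.symm k).1 (e.symm k).2.2)) *
      x (e.symm k).1 (e.symm k).2.1,
    fun k => y (e.symm k).1 (e.symm k).2.2, ?_, ?_, ?_⟩
  · intro k
    have h3 : ∀ c : K₀, bc K₀ (HahnSeries.C c) = HahnSeries.C (algebraMap K₀ Qb c) := by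
      intro c
      rw [HahnSeries.C_apply, HahnSeries.C_apply]
      exact coeffMap_single _ _ _
    rw [map_mul, h3]
    exact hV.smul _ _ (hx _ _)
  · intro k
    exact hy _ _
  · rw [← key]
    exact Equiv.sum_comp e.symm (fun l : (Σ i : Fin r, Fin (n i) × Fin (m i)) =>
      (HahnSeries.C (φ (u l.1 l.2.1 * w l.1 l.2.2)) * x l.1 l.2.1) * y l.1 l.2.2)

end Fermat.Agent.S44.Cover
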