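import Fermat.Agent.S44.Cover.IntK
import Fermat.Agent.S44.Cover.Span
import Fermat.Agent.SS.GM2.Desc.InvK

/-!
# S44 / Cover / InvDesc : `InvK` over a FIXED field `K₀`

* `invKq_K0`   : `W₀ ∈ K₀((q))` with `bc W₀ = W ∈ F_N`, `m ∣ ord_P W` for all places  ⟹  `SS.GM2.InvKq K₀ N m t W₀` (no enlargement of `K₀`).
* `invK_cover` : the same for `f' ∈ F_{K₀}(t₀)`, `bc f' = f κ^p`, `f ∈ F_N` with `p ∣ ord_P f`, `κ ∈ F_N(t₀)`.
-/

set_option autoImplicit false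

open AlgebraicCurve ModularCurve IntermediateField

namespace Fermat.Agent.S44.Cover

open Fermat.Agent.ES Fermat.Agent.Crux
open Fermat.Agent.S28 (evAt)
open Fermat.Agent.S24.FF (Ry)

variable {K₀ : IntermediateField ℚ Qb} {t : LaurentSeries K₀}

/-- the module `I_m(W) ∩ E` is a `Γ`-stable `ℚ̄`-subspace. -/
theorem stable_IK (E : Subring LL) (hC : ∀ c : Qb, HahnSeries.C c ∈ E)
    (hgal : ∀ g : GQ, (∀ c ∈ K₀, g c = c) → ∀ x ∈ E, gact g x ∈ E) {m : ℕ} (hm : 0 < m) (W : LL)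
    (hW : ∀ g : GQ, (∀ c ∈ K₀, g c = c) → gact g W = W) :
    Stable K₀ (fun x => x ∈ E ∧ IntK K₀ t (x ^ m * W)) where
  zero := ⟨E.zero_mem, by rw [zero_pow hm.ne', zero_mul]; exact intK_zero⟩
  add := fun x y hx hy => ⟨E.add_mem hx.1 hy.1, IntK.add_pow_mul hm hx.2 hy.2⟩
  smul := fun c x hx => ⟨E.mul_mem (hC c) hx.1, by
    rw [mul_pow, mul_assoc]
    exact ((intK_C c).pow m).mul hx.2⟩
  gal := fun g hg x hx => ⟨hgal g hg x hx.1, by
    have h := hx.2.gact g hg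
    rwa [map_mul, map_pow, hW g hg] at h⟩

theorem invKq_K0 (N m : ℕ) [NeZero N] (hm : 0 < m) (t W₀ : LaurentSeries K₀) (y W : FF N)
    (ht : bc K₀ t = (y : LL)) (hW₀ : bc K₀ W₀ = (W : LL)) [FiniteDimensional Qb⟮y⟯ (FF N)]
    (hW : W ≠ 0) (hdiv : ∀ P : Place Qb (FF N), (m : ℤ) ∣ P.ord W) :
    SS.GM2.InvKq K₀ N m t W₀ := by
  obtain ⟨n, a, b, ha, hb, hsum⟩ := SS.GM2.exists_invK_gen y m hm W hW hdiv
  let E : Subring LL := (modularFunctionFieldBar N).toSubfield.toSubring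
  have hC : ∀ c : Qb, HahnSeries.C c ∈ E := fun c => by
    rw [← coe_algebraMap_FF (N := N)]
    exact (algebraMap Qb (FF N) c).2
  have hgal : ∀ g : GQ, (∀ c ∈ K₀, g c = c) → ∀ x ∈ E, gact g x ∈ E :=
    fun g _ x hx => (galF N g ⟨x, hx⟩).2
  have hWfix : ∀ g : GQ, (∀ c ∈ K₀, g c = c) → gact g (W : LL) = W := fun g hg => by
    rw [← hW₀]; exact gact_bc K₀ g hg W₀
  have hWfix' : ∀ g : GQ, (∀ c ∈ K₀, g c = c) → gact g (W : LL)⁻¹ = (W : LL)⁻¹ := fun g hg => by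
    rw [map_inv₀, hWfix g hg]
  obtain ⟨s, a', b', ha', hb', hsum'⟩ := invK_descent (K₀ := K₀)
    (stable_IK (t := t) E hC hgal hm (W : LL) hWfix)
    (stable_IK (t := t) E hC hgal hm (W : LL)⁻¹ hWfix') n (fun i => (a i : LL))
    (fun i => (b i : LL)) (fun i => ⟨(a i).2, intK_of_Ry N y (a i ^ m * W) ht (ha i)⟩)
    (fun i => ⟨(b i).2, intK_of_Ry N y (b i ^ m * W⁻¹) ht (hb i)⟩)
    (fun i => finCoeff_FF N (a i)) (fun i => finCoeff_FF N (b i))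
    (by
      have h1 := congrArg (fun x : FF N => (x : LL)) hsum
      simpa only [IntermediateField.coe_sum, IntermediateField.coe_mul,
        IntermediateField.coe_one] using h1)
  refine ⟨s, a', b', fun l => S33.desc K₀ N _ (ha' l).1, fun l => S33.desc K₀ N _ (hb' l).1,
    fun l => ?_, fun l => ?_, hsum'⟩
  · rw [← intK_bc_iff, map_mul, map_pow, hW₀]
    exact (ha' l).2
  · rw [← intK_bc_iff, map_mul, map_pow, map_inv₀, hW₀]
    exact (hb' l).2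

theorem gact_mem_adjoin {N p : ℕ} (hp : p.Prime) (t₀ : LaurentSeries K₀) (W : FF N)
    (ht : (bc K₀ t₀) ^ p = (W : LL)) (g : GQ) (hg : ∀ c ∈ K₀, g c = c) (x : LL)
    (hx : x ∈ (FF N)⟮bc K₀ t₀⟯) : gact g x ∈ (FF N)⟮bc K₀ t₀⟯ := by
  obtain ⟨a, rfl⟩ := exists_repr' hp _ W ht x hx
  rw [gact_sum g _ (gact_bc K₀ g hg t₀)]
  exact sum_mem_adjoin _ _ _ (mem_adjoin_simple_self (FF N) _) p

theorem invK_cover {N p : ℕ} [NeZero N] (hp : p.Prime) (t : LaurentSeries K₀) (y : FF N)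
    (hty : bc K₀ t = (y : LL)) [FiniteDimensional Qb⟮y⟯ (FF N)] (t₀ : LaurentSeries K₀) (W : FF N)
    (ht : (bc K₀ t₀) ^ p = (W : LL)) (hW : ∀ b : FF N, b ^ p ≠ W) (f : FF N) (hf0 : f ≠ 0)
    (hdiv : ∀ P : Place Qb (FF N), (p : ℤ) ∣ P.ord f) (f' : LaurentSeries K₀) (κ : LL)
    (hκ : κ ∈ (FF N)⟮bc K₀ t₀⟯) (hκ0 : κ ≠ 0) (hf' : bc K₀ f' = f * κ ^ p) :
    ∃ (s : ℕ) (A B : Fin s → ℕ → LaurentSeries K₀),
      (∀ l i, A l i ∈ modularFunctionFieldFullC K₀ N) ∧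
      (∀ l i, B l i ∈ modularFunctionFieldFullC K₀ N) ∧
      (∀ l, (evAt t).IsIntegralElem ((∑ i ∈ Finset.range p, A l i * t₀ ^ i) ^ p * f')) ∧
      (∀ l, (evAt t).IsIntegralElem ((∑ i ∈ Finset.range p, B l i * t₀ ^ i) ^ p * f'⁻¹)) ∧
      ∑ l, (∑ i ∈ Finset.range p, A l i * t₀ ^ i) * (∑ i ∈ Finset.range p, B l i * t₀ ^ i)
        = 1 := by
  obtain ⟨n, a, b, ha, hb, hsum⟩ := SS.GM2.exists_invK_gen y p hp.pos f hf0 hdiv
  let E : Subring LL := ((FF N)⟮bc K₀ t₀⟯).toSubfield.toSubring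
  have hFE : ∀ x : FF N, (x : LL) ∈ E := fun x =>
    IntermediateField.algebraMap_mem (FF N)⟮bc K₀ t₀⟯ x
  have hC : ∀ c : Qb, HahnSeries.C c ∈ E := fun c => by
    rw [← coe_algebraMap_FF (N := N)]
    exact hFE _
  have hgal : ∀ g : GQ, (∀ c ∈ K₀, g c = c) → ∀ x ∈ E, gact g x ∈ E :=
    fun g hg x hx => gact_mem_adjoin hp t₀ W ht g hg x hx
  have hfix : ∀ g : GQ, (∀ c ∈ K₀, g c = c) → gact g (bc K₀ f') = bc K₀ f' :=
    fun g hg => gact_bc K₀ g hg f'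
  have hfix' : ∀ g : GQ, (∀ c ∈ K₀, g c = c) → gact g (bc K₀ f')⁻¹ = (bc K₀ f')⁻¹ :=
    fun g hg => by rw [map_inv₀, hfix g hg]
  have hκp : κ ^ p ≠ 0 := pow_ne_zero p hκ0
  have hκE : κ ∈ E := hκ
  have hκE' : κ⁻¹ ∈ E := inv_mem (s := (FF N)⟮bc K₀ t₀⟯) hκ
  obtain ⟨s, a', b', ha', hb', hsum'⟩ := invK_descent (K₀ := K₀)
    (stable_IK (t := t) E hC hgal hp.pos (bc K₀ f') hfix)
    (stable_IK (t := t) E hC hgal hp.pos (bc K₀ f')⁻¹ hfix') n (fun i => (a i : LL) * κ⁻¹)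
    (fun i => (b i : LL) * κ)
    (fun i => ⟨E.mul_mem (hFE _) hκE', by
      have h1 := intK_of_Ry (K₀ := K₀) (t := t) N y (a i ^ p * f) hty (ha i)
      have h2 : ((a i : LL) * κ⁻¹) ^ p * bc K₀ f' = ((a i ^ p * f : FF N) : LL) := by
        rw [hf', mul_pow, inv_pow]
        show (a i : LL) ^ p * (κ ^ p)⁻¹ * ((f : LL) * κ ^ p) = (a i : LL) ^ p * (f : LL)
        field_simp
      rw [h2]; exact h1⟩)
    (fun i => ⟨E.mul_mem (hFE _) hκE, by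
      have h1 := intK_of_Ry (K₀ := K₀) (t := t) N y (b i ^ p * f⁻¹) hty (hb i)
      have h2 : ((b i : LL) * κ) ^ p * (bc K₀ f')⁻¹ = ((b i ^ p * f⁻¹ : FF N) : LL) := by
        rw [hf', mul_pow, mul_inv]
        show (b i : LL) ^ p * κ ^ p * ((f : LL)⁻¹ * (κ ^ p)⁻¹) = (b i : LL) ^ p * (f : LL)⁻¹
        field_simp
      rw [h2]; exact h1⟩)
    (fun i => finCoeff_adjoin hp t₀ W ht _ (E.mul_mem (hFE _) hκE'))
    (fun i => finCoeff_adjoin hp t₀ W ht _ (E.mul_mem (hFE _) hκE))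
    (by
      have h1 := congrArg (fun x : FF N => (x : LL)) hsum
      simp only [IntermediateField.coe_sum, IntermediateField.coe_mul,
        IntermediateField.coe_one] at h1
      rw [← h1]
      refine Finset.sum_congr rfl fun i _ => ?_
      field_simp)
  have hrep : ∀ α : LaurentSeries K₀, bc K₀ α ∈ E → ∃ c : ℕ → LaurentSeries K₀,
      (∀ i, c i ∈ modularFunctionFieldFullC K₀ N) ∧ α = ∑ i ∈ Finset.range p, c i * t₀ ^ i := by
    intro α hα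
    obtain ⟨c, C', hc1, hc2, hc3⟩ := exists_model_repr hp K₀ t₀ W ht hW (bc K₀ α) hα
      (fun g hg => gact_bc K₀ g hg α)
    refine ⟨c, hc1, bc_injective K₀ ?_⟩
    rw [hc3, map_sum]
    refine Finset.sum_congr rfl fun i _ => ?_
    rw [map_mul, map_pow, hc2]
  choose A hA1 hA2 using fun l => hrep (a' l) (ha' l).1
  choose B hB1 hB2 using fun l => hrep (b' l) (hb' l).1
  refine ⟨s, A, B, hA1, hB1, fun l => ?_, fun l => ?_, ?_⟩
  · rw [← hA2, ← intK_bc_iff, map_mul, map_pow]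
    exact (ha' l).2
  · rw [← hB2, ← intK_bc_iff, map_mul, map_pow, map_inv₀]
    exact (hb' l).2
  · rw [← hsum']
    exact Finset.sum_congr rfl fun l _ => by rw [← hA2, ← hB2]

end Fermat.Agent.S44.Cover
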