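import Fermat.Agent.SS.GM2.Desc.Field
import Fermat.Agent.S33.Good.Desc

/-!
# S44 / Cover / Series : the coefficientwise Galois action on `ℚ̄((q))`

`gact g = coeffMap g`.  All statements are elementary facts on Laurent series.

* `exists_root_lc_one` : `Crux.GM.exists_pow_eq_laurent` gives `w ^ p = f`; `lc(w) ^ p = lc(f) = 1`
  (`HahnSeries.leadingCoeff_pow` or `leadingCoeff_mul` by induction); `φ := C (lc w)⁻¹ * w`.
* `eq_zeta_pow_mul` : `(x / y) ^ p = 1` in the field `ℚ̄((q))`; `C ζ` is a primitive `p`-th root of unity there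
  (`IsPrimitiveRoot.map_of_injective`), `IsPrimitiveRoot.eq_pow_of_pow_eq_one`.
* `finite_orbit` : `SS.GM2.exists_field N ∅ {f}` gives a number field `K₁` and `u ∈ K₁((q))` with `bc u = f`; then
  `gact g f = coeffMap (g ∘ algebraMap) u` depends only on the `ℚ`-algebra hom `g ∘ algebraMap : K₁ →ₐ[ℚ] ℚ̄`, and
  `K₁ →ₐ[ℚ] ℚ̄` is finite (`Finite (K₁ →ₐ[ℚ] Qb)` by `inferInstance`).  `Set.Finite.subset (Set.finite_range _)`.
* `finite_orbit_root` : `x ↦ x ^ p` maps the orbit of `φ` into the orbit of `f`, injectively: two elements `x, x'` of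
  the orbit of `φ` have leading coefficient `1` (`leadingCoeff_gact`), and `x ^ p = x' ^ p` gives `x = C ζ^i * x'`, so `ζ^i = 1`.
  (`Set.Finite.of_injOn` / `Set.Finite.of_finite_image`.)
* `orbit_sum` : `ψ := ∑ x ∈ orbit, x`.  `gact g` permutes the orbit (`Finset.sum_bij` / `Finset.sum_nbij'`, injective ring hom, `Γ` a
  subgroup), so `gact g ψ = ψ`.  All `x` in the orbit have order `n₀ = order φ` and coefficient `1` at `n₀`, so
  `ψ.coeff n₀ = #orbit ≠ 0`.
* `exists_of_fixed` : every coefficient of `x` is fixed by `K₀.fixingSubgroup`, so lies in `K₀`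
  (`InfiniteGalois.fixedField_fixingSubgroup`, `IntermediateField.mem_fixedField_iff`); build the series over `K₀` with
  `HahnSeries.ofSuppBddBelow` or as in `Crux.exists_series_lift`.
-/

set_option autoImplicit false

open AlgebraicCurve ModularCurve

namespace Fermat.Agent.S44.Cover

open Fermat.Agent.ES Fermat.Agent.Crux

/-- `ℚ̄((q))` -/
abbrev LL : Type := LaurentSeries Qb

/-- the coefficientwise action of `G_ℚ` on `ℚ̄((q))`. -/
noncomputable abbrev gact (g : GQ) : LL →+* LL := coeffMap (g : Qb →+* Qb)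

/-- base change `K₀((q)) → ℚ̄((q))`. -/
noncomputable abbrev bc (K₀ : IntermediateField ℚ Qb) : LaurentSeries K₀ →+* LL :=
  coeffMap (algebraMap K₀ Qb)

theorem gact_coeff (g : GQ) (x : LL) (n : ℤ) : (gact g x).coeff n = g (x.coeff n) := rfl

theorem gact_injective (g : GQ) : Function.Injective (gact g) :=
  coeffMap_injective _ (g : Qb →+* Qb).injective

theorem order_gact (g : GQ) (x : LL) : (gact g x).order = x.order :=
  order_coeffMap _ (g : Qb →+* Qb).injective x

theorem leadingCoeff_gact (g : GQ) (x : LL) : (gact g x).leadingCoeff = g x.leadingCoeff :=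
  leadingCoeff_coeffMap _ (g : Qb →+* Qb).injective x

theorem gact_mul_apply (g h : GQ) (x : LL) : gact (g * h) x = gact g (gact h x) := by
  ext n; rfl

theorem gact_one_apply (x : LL) : gact 1 x = x := by
  ext n; rfl

theorem gact_C (g : GQ) (c : Qb) : gact g (HahnSeries.C c) = HahnSeries.C (g c) := by
  ext n
  rw [gact_coeff, HahnSeries.C_apply, HahnSeries.C_apply, HahnSeries.coeff_single,
    HahnSeries.coeff_single]
  split_ifs
  · rfl
  · exact map_zero g

theorem gact_bc (K₀ : IntermediateField ℚ Qb) (g : GQ) (hg : ∀ x ∈ K₀, g x = x)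
    (x : LaurentSeries K₀) : gact g (bc K₀ x) = bc K₀ x := by
  ext n
  rw [gact_coeff]
  exact hg _ (x.coeff n).2

theorem bc_injective (K₀ : IntermediateField ℚ Qb) : Function.Injective (bc K₀) :=
  coeffMap_injective _ (algebraMap K₀ Qb).injective

/-- a `p`-th root with leading coefficient `1`. -/
theorem exists_root_lc_one {p : ℕ} (hp : 0 < p) (f : LL) (hf : f.leadingCoeff = 1)
    (hord : (p : ℤ) ∣ f.order) : ∃ φ : LL, φ ^ p = f ∧ φ.leadingCoeff = 1 := by
  have hf0 : f ≠ 0 := by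
    rintro rfl
    rw [HahnSeries.leadingCoeff_zero] at hf
    exact zero_ne_one hf
  obtain ⟨w, hw⟩ := GM.exists_pow_eq_laurent p hp f hf0 hord ⟨1, by rw [one_pow, hf]⟩
  have hw0 : w ≠ 0 := by
    rintro rfl
    rw [zero_pow hp.ne'] at hw
    exact hf0 hw.symm
  have hlc0 : w.leadingCoeff ≠ 0 := HahnSeries.leadingCoeff_ne_zero.mpr hw0
  have hpow : ∀ n : ℕ, (w ^ n).leadingCoeff = w.leadingCoeff ^ n := by
    intro n
    induction n with
    | zero => simp
    | succ n ih => rw [pow_succ, pow_succ, HahnSeries.leadingCoeff_mul, ih]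
  have hlc : w.leadingCoeff ^ p = 1 := by
    rw [← hpow, hw, hf]
  refine ⟨HahnSeries.C (w.leadingCoeff)⁻¹ * w, ?_, ?_⟩
  · rw [mul_pow, hw, ← map_pow, inv_pow, hlc, inv_one, map_one, one_mul]
  · rw [HahnSeries.leadingCoeff_mul, HahnSeries.C_apply, HahnSeries.leadingCoeff_of_single,
      inv_mul_cancel₀ hlc0]

/-- two `p`-th roots differ by a root of unity. -/
theorem eq_zeta_pow_mul {p : ℕ} (hp : 0 < p) (ζ : Qb) (hζ : IsPrimitiveRoot ζ p) (x y : LL)
    (hy : y ≠ 0) (h : x ^ p = y ^ p) : ∃ i : ℕ, x = HahnSeries.C (ζ ^ i) * y := by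
  have hζ' : IsPrimitiveRoot (HahnSeries.C ζ : LL) p :=
    hζ.map_of_injective (f := (HahnSeries.C : Qb →+* LL)) HahnSeries.C_injective
  have h1 : (x / y) ^ p = 1 := by
    rw [div_pow, h, div_self (pow_ne_zero _ hy)]
  have : NeZero p := ⟨hp.ne'⟩
  obtain ⟨i, -, hi⟩ := hζ'.eq_pow_of_pow_eq_one h1
  refine ⟨i, ?_⟩
  rw [map_pow, hi, div_mul_cancel₀ _ hy]

/-- the orbit of a modular function is finite. -/
theorem finite_orbit (N : ℕ) [NeZero N] (f : FF N) :
    {x : LL | ∃ g : GQ, x = gact g (f : LL)}.Finite := by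
  classical
  obtain ⟨K₁, hfd, -, -, hS⟩ := SS.GM2.exists_field N ∅ {f}
  obtain ⟨u, -, hu⟩ := hS f (Finset.mem_singleton_self f)
  have hfin : Finite (K₁ →ₐ[ℚ] Qb) := inferInstance
  refine (Set.finite_range (fun φ : K₁ →ₐ[ℚ] Qb => coeffMap (φ : K₁ →+* Qb) u)).subset ?_
  rintro x ⟨g, rfl⟩
  refine ⟨(g : Qb →ₐ[ℚ] Qb).comp K₁.val, ?_⟩
  rw [← hu]
  ext n
  rfl

/-- the orbit of a normalised `p`-th root of a modular function is finite. -/
theorem finite_orbit_root (N : ℕ) [NeZero N] {p : ℕ} (hp : p.Prime) (f : FF N) (φ : LL)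
    (hφ : φ ^ p = (f : LL)) (hlc : φ.leadingCoeff = 1) (Γ : Subgroup GQ) :
    {x : LL | ∃ g ∈ Γ, x = gact g φ}.Finite := by
  have hfin := finite_orbit N f
  obtain ⟨ζ, hζ⟩ : ∃ ζ : Qb, IsPrimitiveRoot ζ p := by
    have : NeZero (p : Qb) := ⟨Nat.cast_ne_zero.2 hp.ne_zero⟩
    have : NeZero p := ⟨hp.ne_zero⟩
    exact HasEnoughRootsOfUnity.exists_primitiveRoot Qb p
  refine Set.Finite.of_injOn (f := fun x : LL => x ^ p) ?_ ?_ hfin
  · rintro x ⟨g, -, rfl⟩
    exact ⟨g, by rw [← hφ, map_pow]⟩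
  · rintro x ⟨g, -, rfl⟩ x' ⟨g', -, rfl⟩ h
    have hlc1 : (gact g φ).leadingCoeff = 1 := by rw [leadingCoeff_gact, hlc, map_one]
    have hlc2 : (gact g' φ).leadingCoeff = 1 := by rw [leadingCoeff_gact, hlc, map_one]
    have hne : gact g' φ ≠ 0 := by
      intro h0
      rw [h0, HahnSeries.leadingCoeff_zero] at hlc2
      exact zero_ne_one hlc2
    obtain ⟨i, hi⟩ := eq_zeta_pow_mul hp.pos ζ hζ _ _ hne h
    have h1 : ζ ^ i = 1 := by
      have h2 := congrArg HahnSeries.leadingCoeff hi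
      rw [hlc1, HahnSeries.leadingCoeff_mul, hlc2, mul_one, HahnSeries.C_apply,
        HahnSeries.leadingCoeff_of_single] at h2
      exact h2.symm
    rw [hi, h1, map_one, one_mul]

/-- the sum over a finite orbit is fixed and nonzero. -/
theorem orbit_sum (Γ : Subgroup GQ) (φ : LL) (hlc : φ.leadingCoeff = 1)
    (hfin : {x : LL | ∃ g ∈ Γ, x = gact g φ}.Finite) :
    (∀ g ∈ Γ, gact g (∑ x ∈ hfin.toFinset, x) = ∑ x ∈ hfin.toFinset, x) ∧
      (∑ x ∈ hfin.toFinset, x) ≠ 0 := by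
  have hφ0 : φ ≠ 0 := by
    rintro rfl
    rw [HahnSeries.leadingCoeff_zero] at hlc
    exact zero_ne_one hlc
  constructor
  · intro g hg
    rw [map_sum]
    refine Finset.sum_bij (fun x _ => gact g x) ?_ ?_ ?_ ?_
    · intro x hx
      rw [Set.Finite.mem_toFinset] at hx ⊢
      obtain ⟨h, hh, rfl⟩ := hx
      exact ⟨g * h, Γ.mul_mem hg hh, (gact_mul_apply g h φ).symm⟩
    · intro x _ y _ hxy
      exact gact_injective g hxy
    · intro y hy
      rw [Set.Finite.mem_toFinset] at hy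
      obtain ⟨h, hh, rfl⟩ := hy
      refine ⟨gact (g⁻¹ * h) φ, ?_, ?_⟩
      · rw [Set.Finite.mem_toFinset]
        exact ⟨g⁻¹ * h, Γ.mul_mem (Γ.inv_mem hg) hh, rfl⟩
      · rw [← gact_mul_apply, mul_inv_cancel_left]
    · intro x _
      rfl
  · intro h0
    have hc : ∀ x ∈ hfin.toFinset, x.coeff φ.order = 1 := by
      intro x hx
      rw [Set.Finite.mem_toFinset] at hx
      obtain ⟨h, -, rfl⟩ := hx
      rw [gact_coeff, ← HahnSeries.leadingCoeff_eq, hlc, map_one]
    have h1 := congrArg (fun y : LL => y.coeff φ.order) h0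
    simp only [HahnSeries.coeff_sum, HahnSeries.coeff_zero] at h1
    rw [Finset.sum_congr rfl hc, Finset.sum_const, nsmul_eq_mul, mul_one] at h1
    have h2 : hfin.toFinset.card = 0 := by exact_mod_cast h1
    rw [Finset.card_eq_zero] at h2
    have h3 : φ ∈ hfin.toFinset := by
      rw [Set.Finite.mem_toFinset]
      exact ⟨1, Γ.one_mem, (gact_one_apply φ).symm⟩
    rw [h2] at h3
    exact absurd h3 (Finset.notMem_empty _)

/-- a series fixed by `Gal(ℚ̄/K₀)` has coefficients in `K₀`. -/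
theorem exists_of_fixed (K₀ : IntermediateField ℚ Qb) (x : LL)
    (h : ∀ g : GQ, (∀ c ∈ K₀, g c = c) → gact g x = x) : ∃ x₀ : LaurentSeries K₀, bc K₀ x₀ = x := by
  have hcl : IsAlgClosure ℚ Qb :=
    (inferInstance : @IsAlgClosure ℚ (AlgebraicClosure ℚ) _ _ (AlgebraicClosure.instAlgebra ℚ) _)
  have hgal : IsGalois ℚ Qb := inferInstance
  have hmem : ∀ n, x.coeff n ∈ K₀ := by
    intro n
    rw [← InfiniteGalois.fixedField_fixingSubgroup K₀, IntermediateField.mem_fixedField_iff]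
    intro g hg
    have hg' : ∀ c ∈ K₀, g c = c := (IntermediateField.mem_fixingSubgroup_iff K₀ g).mp hg
    have := congrArg (fun s => s.coeff n) (h g hg')
    simpa only [gact_coeff] using this
  refine ⟨{ coeff := fun n => ⟨x.coeff n, hmem n⟩
            isPWO_support' := ?_ }, ?_⟩
  · refine x.isPWO_support.mono ?_
    intro n hn hn0
    apply hn
    apply Subtype.ext
    exact hn0
  · ext n
    rfl

/-- a number fixed by `Gal(ℚ̄/K₀)` lies in `K₀`. -/
theorem mem_of_fixed (K₀ : IntermediateField ℚ Qb) (c : Qb)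
    (h : ∀ g : GQ, (∀ x ∈ K₀, g x = x) → g c = c) : c ∈ K₀ := by
  have hcl : IsAlgClosure ℚ Qb :=
    (inferInstance : @IsAlgClosure ℚ (AlgebraicClosure ℚ) _ _ (AlgebraicClosure.instAlgebra ℚ) _)
  have hgal : IsGalois ℚ Qb := inferInstance
  rw [← InfiniteGalois.fixedField_fixingSubgroup K₀, IntermediateField.mem_fixedField_iff]
  intro g hg
  exact h g ((IntermediateField.mem_fixingSubgroup_iff K₀ g).mp hg)

/-- a modular function fixed by `Gal(ℚ̄/K₀)` is defined over `K₀`. -/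
theorem exists_model_of_fixed (N : ℕ) [NeZero N] (K₀ : IntermediateField ℚ Qb) (a : FF N)
    (h : ∀ g : GQ, (∀ c ∈ K₀, g c = c) → gact g (a : LL) = a) :
    ∃ a₀ ∈ modularFunctionFieldFullC K₀ N, bc K₀ a₀ = (a : LL) := by
  obtain ⟨a₀, ha₀⟩ := exists_of_fixed K₀ (a : LL) h
  exact ⟨a₀, S33.desc K₀ N a₀ (by rw [show coeffMap (algebraMap K₀ Qb) a₀ = (a : LL) from ha₀]; exact a.2),
    ha₀⟩

end Fermat.Agent.S44.Cover
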