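import Fermat.Agent.S44.Cover.Kummer
import Fermat.Agent.S44.Cover.Series

/-!
# S44 / Cover / Main : the cover trick (B1)-(B3)

`F = FF N ⊆ LL = ℚ̄((q))`, `K₀ ⊆ ℚ̄`, `Γ = Gal(ℚ̄/K₀)` acting coefficientwise, `ζ ∈ K₀` a primitive `p`-th root of unity,
`W₀ ∈ F_{K₀}`, `t₀ ∈ K₀((q))`, `t₀ ^ p = W₀`, not a `p`-th power in `F`; `F' = F(t)`, `τ t = ζ t`.
`f ∈ F` with leading coefficient `1`, `p ∣ ord_q f`, `g f = f W₀^(b g) k_g^p` for `g ∈ Γ`.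

* `φ` := the `p`-th root of `f` in `LL` with leading coefficient `1`;  `g φ = φ · (k' t^(b g))`, `k' ∈ F`;
* `ψ` := the sum over the (finite) `Γ`-orbit of `φ`: `Γ`-fixed, `≠ 0`;  `κ := ψ / φ ∈ F'`;  `g κ = κ / (k' t^(b g))`;
* `f' := ψ ^ p = f κ ^ p ∈ F'`, `Γ`-fixed;
* `μ := τ κ / κ`, `g μ = ζ^(-b g) μ`;  `ϖ` := a nonzero coefficient of `μ`, `β := ϖ ^ p ∈ K₀`, `k₁ := μ / ϖ` is `Γ`-fixed;
* `τ f' = f (τ κ)^p = β f' k₁^p`.
-/

set_option autoImplicit false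

open AlgebraicCurve ModularCurve IntermediateField

namespace Fermat.Agent.S44.Cover

open Fermat.Agent.ES Fermat.Agent.Crux

variable {N p : ℕ}

theorem coe_algebraMap_FF (c : Qb) :
    ((algebraMap Qb (FF N) c : FF N) : LL) = HahnSeries.C c := by
  show algebraMap Qb (LaurentSeries Qb) c = _
  rw [algebraMap_laurentSeries_eq_single]
  rfl

theorem gact_sum (g : GQ) (t : LL) (ht : gact g t = t) (a : ℕ → FF N) (n : ℕ) :
    gact g (∑ i ∈ Finset.range n, (a i : LL) * t ^ i)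
      = ∑ i ∈ Finset.range n, ((galF N g (a i) : FF N) : LL) * t ^ i := by
  rw [map_sum]
  refine Finset.sum_congr rfl fun i _ => ?_
  rw [map_mul, map_pow, ht]
  rfl

theorem sum_mem_adjoin (t : LL) (a : ℕ → FF N) (s : LL) (hs : s ∈ (FF N)⟮t⟯) (n : ℕ) :
    ∑ i ∈ Finset.range n, (a i : LL) * s ^ i ∈ (FF N)⟮t⟯ :=
  sum_mem fun i _ => mul_mem (IntermediateField.algebraMap_mem _ (a i)) (pow_mem hs i)

theorem exists_repr' (hp : p.Prime) (t : LL) (W : FF N) (ht : t ^ p = (W : LL)) (x : LL)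
    (hx : x ∈ (FF N)⟮t⟯) : ∃ a : ℕ → FF N, x = ∑ i ∈ Finset.range p, (a i : LL) * t ^ i :=
  exists_repr hp t W ht x hx

theorem repr_unique' (hp : p.Prime) (t : LL) (W : FF N) (ht : t ^ p = (W : LL))
    (hW : ∀ b : FF N, b ^ p ≠ W) (a a' : ℕ → FF N)
    (h : ∑ i ∈ Finset.range p, (a i : LL) * t ^ i = ∑ i ∈ Finset.range p, (a' i : LL) * t ^ i) :
    ∀ i < p, a i = a' i :=
  repr_unique hp t W ht hW a a' h

section Tau

variable (hp : p.Prime) (ζ : Qb) (t : LL) (W : FF N) (ht : t ^ p = (W : LL))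
  (τ : (FF N)⟮t⟯ →ₐ[FF N] LL)
  (hτ : τ (AdjoinSimple.gen (FF N) t) = HahnSeries.C ζ * t)

include hp ht hτ

theorem tau_eq_sum (a : ℕ → FF N) (x : (FF N)⟮t⟯)
    (hx : (x : LL) = ∑ i ∈ Finset.range p, (a i : LL) * t ^ i) :
    τ x = ∑ i ∈ Finset.range p, (a i : LL) * (HahnSeries.C ζ * t) ^ i := by
  have h := tau_repr (p := p) (algebraMap Qb (FF N) ζ) t τ
    (by rw [hτ]; exact congrArg (· * t) (coe_algebraMap_FF (N := N) ζ).symm) a x hx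
  rw [h]
  refine Finset.sum_congr rfl fun i _ => ?_
  exact congrArg (fun z => (a i : LL) * (z * t) ^ i) (coe_algebraMap_FF (N := N) ζ)

theorem tau_mem (x : (FF N)⟮t⟯) : τ x ∈ (FF N)⟮t⟯ := by
  obtain ⟨a, ha⟩ := exists_repr' hp t W ht (x : LL) x.2
  rw [tau_eq_sum hp ζ t W ht τ hτ a x ha]
  refine sum_mem_adjoin t a _ (mul_mem ?_ (mem_adjoin_simple_self (FF N) t)) p
  rw [← coe_algebraMap_FF (N := N)]
  exact IntermediateField.algebraMap_mem (FF N)⟮t⟯ (algebraMap Qb (FF N) ζ)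

/-- `τ` commutes with the Galois action. -/
theorem gact_tau (g : GQ) (hgt : gact g t = t) (hgζ : g ζ = ζ) (x : (FF N)⟮t⟯) :
    ∃ hx' : gact g (x : LL) ∈ (FF N)⟮t⟯, τ ⟨gact g (x : LL), hx'⟩ = gact g (τ x) := by
  obtain ⟨a, ha⟩ := exists_repr' hp t W ht (x : LL) x.2
  have h1 : gact g (x : LL) = ∑ i ∈ Finset.range p, ((galF N g (a i) : FF N) : LL) * t ^ i := by
    rw [ha, gact_sum g t hgt]
  have hx' : gact g (x : LL) ∈ (FF N)⟮t⟯ := by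
    rw [h1]
    exact sum_mem_adjoin t _ t (mem_adjoin_simple_self (FF N) t) p
  refine ⟨hx', ?_⟩
  rw [tau_eq_sum hp ζ t W ht τ hτ (fun i => galF N g (a i)) ⟨_, hx'⟩ h1,
    tau_eq_sum hp ζ t W ht τ hτ a x ha, gact_sum g (HahnSeries.C ζ * t)]
  rw [map_mul, hgt, gact_C, hgζ]

end Tau

theorem coeff_mul_C (x : LL) (c : Qb) (n : ℤ) : (x * HahnSeries.C c).coeff n = x.coeff n * c := by
  rw [HahnSeries.C_apply, HahnSeries.coeff_mul_single, sub_zero]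

theorem field_aux {L : Type*} [Field L] (f a k c : L) (p : ℕ) (hk : k ≠ 0) (hc : c ≠ 0) :
    f * a ^ p = c ^ p * (f * k ^ p) * (a * k⁻¹ * c⁻¹) ^ p := by
  rw [mul_pow, mul_pow, inv_pow, inv_pow]
  have h1 := pow_ne_zero p hk
  have h2 := pow_ne_zero p hc
  field_simp

/-- **The cover trick over `ℚ̄`.** -/
theorem cover_core [NeZero N] (hp : p.Prime) (K₀ : IntermediateField ℚ Qb) (ζ : Qb) (hζK : ζ ∈ K₀)
    (hζ : IsPrimitiveRoot ζ p) (t : LL) (htK : ∀ g : GQ, (∀ x ∈ K₀, g x = x) → gact g t = t)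
    (W : FF N) (ht : t ^ p = (W : LL))
    (τ : (FF N)⟮t⟯ →ₐ[FF N] LL) (hτ : τ (AdjoinSimple.gen (FF N) t) = HahnSeries.C ζ * t)
    (f : FF N) (hflc : (f : LL).leadingCoeff = 1) (hford : (p : ℤ) ∣ (f : LL).order)
    (b : GQ → ℕ)
    (hb : ∀ g : GQ, (∀ x ∈ K₀, g x = x) →
      ∃ k : FF N, gact g (f : LL) = f * (W : LL) ^ b g * (k : LL) ^ p) :
    ∃ (κ k₁ f' : (FF N)⟮t⟯) (ϖ : Qb), κ ≠ 0 ∧ ϖ ≠ 0 ∧ (f' : LL) = f * (κ : LL) ^ p ∧
      (∀ g : GQ, (∀ x ∈ K₀, g x = x) → gact g (f' : LL) = f') ∧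
      (∀ g : GQ, (∀ x ∈ K₀, g x = x) → gact g (k₁ : LL) = k₁) ∧
      (∀ g : GQ, (∀ x ∈ K₀, g x = x) → g ϖ * ζ ^ b g = ϖ) ∧
      τ f' = HahnSeries.C (ϖ ^ p) * (f' : LL) * (k₁ : LL) ^ p := by
  classical
  set Γ : Subgroup GQ := K₀.fixingSubgroup with hΓ
  have hΓmem : ∀ g : GQ, g ∈ Γ ↔ ∀ x ∈ K₀, g x = x :=
    fun g => IntermediateField.mem_fixingSubgroup_iff K₀ g
  obtain ⟨φ, hφp, hφlc⟩ := exists_root_lc_one hp.pos (f : LL) hflc hford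
  have hφ0 : φ ≠ 0 := by
    rintro rfl
    rw [HahnSeries.leadingCoeff_zero] at hφlc
    exact zero_ne_one hφlc
  have hgφ0 : ∀ g : GQ, gact g φ ≠ 0 := fun g => (map_ne_zero_iff _ (gact_injective g)).mpr hφ0
  -- the action on `φ`
  have key1 : ∀ g ∈ Γ, ∃ k' : FF N, gact g φ = φ * ((k' : LL) * t ^ b g) := by
    intro g hg
    obtain ⟨k, hk⟩ := hb g ((hΓmem g).mp hg)
    have h1 : (gact g φ) ^ p = (φ * ((k : LL) * t ^ b g)) ^ p := by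
      rw [← map_pow, hφp, hk, mul_pow, mul_pow, hφp, ← pow_mul, mul_comm (b g) p, pow_mul, ht]
      ring
    have hne : φ * ((k : LL) * t ^ b g) ≠ 0 := by
      intro h0
      rw [h0, zero_pow hp.ne_zero] at h1
      exact pow_ne_zero p (hgφ0 g) h1
    obtain ⟨i, hi⟩ := eq_zeta_pow_mul hp.pos ζ hζ _ _ hne h1
    refine ⟨algebraMap Qb (FF N) (ζ ^ i) * k, ?_⟩
    rw [hi, IntermediateField.coe_mul, coe_algebraMap_FF]
    ring
  have hfin := finite_orbit_root N hp f φ hφp hφlc Γ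
  obtain ⟨hψfix, hψ0⟩ := orbit_sum Γ φ hφlc hfin
  set ψ : LL := ∑ x ∈ hfin.toFinset, x with hψ
  have hκmem : ψ * φ⁻¹ ∈ (FF N)⟮t⟯ := by
    rw [hψ, Finset.sum_mul]
    refine sum_mem fun x hx => ?_
    obtain ⟨g, hg, rfl⟩ := (hfin.mem_toFinset).mp hx
    obtain ⟨k', hk'⟩ := key1 g hg
    rw [hk', mul_comm φ, mul_assoc, mul_inv_cancel₀ hφ0, mul_one]
    exact mul_mem (IntermediateField.algebraMap_mem _ k')
      (pow_mem (mem_adjoin_simple_self (FF N) t) _)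
  let κ : (FF N)⟮t⟯ := ⟨ψ * φ⁻¹, hκmem⟩
  have hκL0 : (κ : LL) ≠ 0 := mul_ne_zero hψ0 (inv_ne_zero hφ0)
  have hκ0 : κ ≠ 0 := fun h => hκL0 (congrArg Subtype.val h)
  have hτκ0 : τ κ ≠ 0 := (map_ne_zero τ).mpr hκ0
  have hκg : ∀ g ∈ Γ, ∀ k' : FF N, gact g φ = φ * ((k' : LL) * t ^ b g) →
      gact g (κ : LL) * ((k' : LL) * t ^ b g) = κ := by
    intro g hg k' hk'
    have hne : (k' : LL) * t ^ b g ≠ 0 := by
      intro h0
      rw [h0, mul_zero] at hk'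
      exact hgφ0 g hk'
    show gact g (ψ * φ⁻¹) * _ = ψ * φ⁻¹
    rw [map_mul, hψfix g hg, map_inv₀, hk', mul_inv, mul_assoc, mul_assoc, inv_mul_cancel₀ hne,
      mul_one]
  -- `μ`
  set μ : LL := τ κ * (κ : LL)⁻¹ with hμ
  have hμ0 : μ ≠ 0 := mul_ne_zero hτκ0 (inv_ne_zero hκL0)
  have hμmem : μ ∈ (FF N)⟮t⟯ := mul_mem (tau_mem hp ζ t W ht τ hτ κ) (inv_mem κ.2)
  have hμg : ∀ g ∈ Γ, gact g μ * HahnSeries.C (ζ ^ b g) = μ := by
    intro g hg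
    obtain ⟨k', hk'⟩ := key1 g hg
    have hgK := (hΓmem g).mp hg
    obtain ⟨hx', hcomm⟩ := gact_tau hp ζ t W ht τ hτ g (htK g hgK) (hgK ζ hζK) κ
    have e0 := hκg g hg k' hk'
    have e1 : (⟨gact g (κ : LL), hx'⟩ : (FF N)⟮t⟯)
        * (algebraMap (FF N) (FF N)⟮t⟯ k' * AdjoinSimple.gen (FF N) t ^ b g) = κ :=
      Subtype.ext e0
    have e3 : τ (algebraMap (FF N) (FF N)⟮t⟯ k' * AdjoinSimple.gen (FF N) t ^ b g)
        = (k' : LL) * (HahnSeries.C ζ * t) ^ b g := by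
      rw [map_mul, map_pow, hτ, AlgHom.commutes]
      rfl
    have e2' : gact g (τ κ) * ((k' : LL) * (HahnSeries.C ζ * t) ^ b g) = τ κ := by
      rw [← hcomm, ← e3, ← map_mul, e1]
    have hne : (k' : LL) * t ^ b g ≠ 0 := by
      intro h0
      rw [h0, mul_zero] at hk'
      exact hgφ0 g hk'
    have hgκ0 : gact g (κ : LL) ≠ 0 := (map_ne_zero_iff _ (gact_injective g)).mpr hκL0
    have e4 : (k' : LL) * (HahnSeries.C ζ * t) ^ b g
        = HahnSeries.C (ζ ^ b g) * ((k' : LL) * t ^ b g) := by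
      rw [map_pow, mul_pow]; ring
    calc gact g μ * HahnSeries.C (ζ ^ b g)
        = gact g (τ κ) * (gact g (κ : LL))⁻¹ * HahnSeries.C (ζ ^ b g) := by
          rw [hμ, map_mul, map_inv₀]
      _ = (gact g (τ κ) * (HahnSeries.C (ζ ^ b g) * ((k' : LL) * t ^ b g)))
            * (gact g (κ : LL) * ((k' : LL) * t ^ b g))⁻¹ := by
          rw [mul_inv]
          generalize (k' : LL) * t ^ b g = X at hne
          field_simp
      _ = μ := by rw [← e4, e2', e0]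
  -- `ϖ`
  obtain ⟨n, hn⟩ : ∃ n, μ.coeff n ≠ 0 := by
    by_contra hcon
    push Not at hcon
    exact hμ0 (HahnSeries.ext (funext hcon))
  set ϖ : Qb := μ.coeff n with hϖ
  have hϖg : ∀ g ∈ Γ, g ϖ * ζ ^ b g = ϖ := by
    intro g hg
    have := congrArg (fun s : LL => s.coeff n) (hμg g hg)
    simpa only [coeff_mul_C, gact_coeff] using this
  have hCϖ0 : (HahnSeries.C ϖ : LL) ≠ 0 := by
    rw [Ne, map_eq_zero]; exact hn
  have hk₁mem : μ * (HahnSeries.C ϖ)⁻¹ ∈ (FF N)⟮t⟯ := by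
    refine mul_mem hμmem (inv_mem ?_)
    rw [← coe_algebraMap_FF (N := N)]
    exact IntermediateField.algebraMap_mem (FF N)⟮t⟯ (algebraMap Qb (FF N) ϖ)
  have hf'mem : (f : LL) * (κ : LL) ^ p ∈ (FF N)⟮t⟯ :=
    mul_mem (IntermediateField.algebraMap_mem _ f) (pow_mem κ.2 p)
  have hf'ψ : (f : LL) * (κ : LL) ^ p = ψ ^ p := by
    show (f : LL) * (ψ * φ⁻¹) ^ p = ψ ^ p
    rw [mul_pow, inv_pow, hφp]
    have hf0 : (f : LL) ≠ 0 := by rw [← hφp]; exact pow_ne_zero p hφ0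
    field_simp
  refine ⟨κ, ⟨_, hk₁mem⟩, ⟨_, hf'mem⟩, ϖ, hκ0, hn, rfl, ?_, ?_, ?_, ?_⟩
  · intro g hg
    show gact g ((f : LL) * (κ : LL) ^ p) = (f : LL) * (κ : LL) ^ p
    rw [hf'ψ, map_pow, hψfix g ((hΓmem g).mpr hg)]
  · intro g hg
    have hg' := (hΓmem g).mpr hg
    show gact g (μ * (HahnSeries.C ϖ)⁻¹) = μ * (HahnSeries.C ϖ)⁻¹
    have h1 := hμg g hg'
    have h2 := hϖg g hg'
    have hζb : (HahnSeries.C (ζ ^ b g) : LL) ≠ 0 := by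
      rw [Ne, map_eq_zero]; exact pow_ne_zero _ (hζ.ne_zero hp.ne_zero)
    have hgϖ : (HahnSeries.C (g ϖ) : LL) ≠ 0 := by
      rw [Ne, map_eq_zero, map_eq_zero]; exact hn
    rw [map_mul, map_inv₀, gact_C]
    have h3 : (HahnSeries.C ϖ : LL) = HahnSeries.C (g ϖ) * HahnSeries.C (ζ ^ b g) := by
      rw [← map_mul, h2]
    rw [h3, mul_inv]
    nth_rewrite 2 [← h1]
    generalize gact g μ = A
    generalize (HahnSeries.C (ζ ^ b g) : LL) = B at hζb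
    generalize (HahnSeries.C (g ϖ) : LL) = D at hgϖ
    field_simp
  · intro g hg
    exact hϖg g ((hΓmem g).mpr hg)
  · have e1 : (⟨(f : LL) * (κ : LL) ^ p, hf'mem⟩ : (FF N)⟮t⟯)
        = algebraMap (FF N) (FF N)⟮t⟯ f * κ ^ p := Subtype.ext rfl
    rw [e1, map_mul, map_pow, AlgHom.commutes]
    show (f : LL) * τ κ ^ p
      = HahnSeries.C (ϖ ^ p) * ((f : LL) * (κ : LL) ^ p) * (μ * (HahnSeries.C ϖ)⁻¹) ^ p
    rw [map_pow]
    exact field_aux _ _ _ _ p hκL0 hCϖ0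

theorem bc_C (K₀ : IntermediateField ℚ Qb) (c : K₀) :
    bc K₀ (HahnSeries.C c) = HahnSeries.C (c : Qb) := by
  ext n
  show algebraMap K₀ Qb ((HahnSeries.C c : LaurentSeries K₀).coeff n) = _
  rw [HahnSeries.C_apply, HahnSeries.C_apply, HahnSeries.coeff_single, HahnSeries.coeff_single]
  split_ifs
  · rfl
  · exact map_zero _

/-- a `Γ`-fixed element of `F(t)` has `K₀`-rational coordinates. -/
theorem exists_model_repr [NeZero N] (hp : p.Prime) (K₀ : IntermediateField ℚ Qb)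
    (t₀ : LaurentSeries K₀) (W : FF N) (ht : (bc K₀ t₀) ^ p = (W : LL))
    (hW : ∀ b : FF N, b ^ p ≠ W) (x : LL) (hx : x ∈ (FF N)⟮bc K₀ t₀⟯)
    (hfix : ∀ g : GQ, (∀ c ∈ K₀, g c = c) → gact g x = x) :
    ∃ (a : ℕ → LaurentSeries K₀) (A : ℕ → FF N), (∀ i, a i ∈ modularFunctionFieldFullC K₀ N) ∧
      (∀ i, bc K₀ (a i) = (A i : LL)) ∧
      x = ∑ i ∈ Finset.range p, (A i : LL) * (bc K₀ t₀) ^ i := by
  obtain ⟨A0, hA0⟩ := exists_repr' hp _ W ht x hx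
  let A : ℕ → FF N := fun i => if i < p then A0 i else 0
  have hA : x = ∑ i ∈ Finset.range p, (A i : LL) * (bc K₀ t₀) ^ i := by
    rw [hA0]
    refine Finset.sum_congr rfl fun i hi => ?_
    simp only [A, if_pos (Finset.mem_range.mp hi)]
  have hAfix : ∀ i, ∀ g : GQ, (∀ c ∈ K₀, g c = c) → gact g (A i : LL) = A i := by
    intro i g hg
    by_cases hi : i < p
    · have h1 := hfix g hg
      nth_rewrite 1 [hA] at h1
      rw [gact_sum g _ (gact_bc K₀ g hg t₀)] at h1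
      nth_rewrite 1 [hA] at h1
      have h2 := repr_unique' hp _ W ht hW _ _ h1 i hi
      exact congrArg Subtype.val h2
    · simp only [A, if_neg hi]
      exact map_zero _
  choose a ha1 ha2 using fun i => exists_model_of_fixed N K₀ (A i) (hAfix i)
  exact ⟨a, A, ha1, ha2, hA⟩

/-- **The cover trick, `K₀`-rational form.** -/
theorem cover_main [NeZero N] (hp : p.Prime) (K₀ : IntermediateField ℚ Qb) (ζ : K₀)
    (hζ : IsPrimitiveRoot ζ p) (W₀ t₀ : LaurentSeries K₀)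
    (hW₀ : W₀ ∈ modularFunctionFieldFullC K₀ N) (ht₀ : t₀ ^ p = W₀)
    (hnp : ∀ h : FF N, (h : LL) ^ p ≠ bc K₀ W₀)
    (f : FF N) (hflc : (f : LL).leadingCoeff = 1) (hford : (p : ℤ) ∣ (f : LL).order)
    (b : GQ → ℕ)
    (hb : ∀ g : GQ, (∀ x ∈ K₀, g x = x) →
      ∃ k : FF N, gact g (f : LL) = f * (bc K₀ W₀) ^ b g * (k : LL) ^ p) :
    ∃ (a c : ℕ → LaurentSeries K₀) (β : K₀) (ϖ : Qb) (e : ℕ → FF N),
      (∀ i, a i ∈ modularFunctionFieldFullC K₀ N) ∧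
      (∀ i, c i ∈ modularFunctionFieldFullC K₀ N) ∧ β ≠ 0 ∧ ϖ ^ p = (β : Qb) ∧
      (∀ g : GQ, (∀ x ∈ K₀, g x = x) → g ϖ * (ζ : Qb) ^ b g = ϖ) ∧
      (∑ i ∈ Finset.range p, (e i : LL) * (bc K₀ t₀) ^ i) ≠ 0 ∧
      bc K₀ (∑ i ∈ Finset.range p, a i * t₀ ^ i)
        = f * (∑ i ∈ Finset.range p, (e i : LL) * (bc K₀ t₀) ^ i) ^ p ∧
      ∑ i ∈ Finset.range p, a i * (HahnSeries.C ζ * t₀) ^ i
        = HahnSeries.C β * (∑ i ∈ Finset.range p, a i * t₀ ^ i)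
          * (∑ i ∈ Finset.range p, c i * t₀ ^ i) ^ p := by
  classical
  let W : FF N := ⟨bc K₀ W₀, Crux.coeffMap_mem_bar K₀ N hW₀⟩
  have ht : (bc K₀ t₀) ^ p = (W : LL) := by
    rw [← map_pow, ht₀]
  have hW : ∀ h : FF N, h ^ p ≠ W := fun h hh => hnp h (congrArg Subtype.val hh)
  have hζQ : IsPrimitiveRoot (ζ : Qb) p :=
    hζ.map_of_injective (f := algebraMap K₀ Qb) (algebraMap K₀ Qb).injective
  obtain ⟨τ, hτ'⟩ := exists_tau hp (algebraMap Qb (FF N) (ζ : Qb))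
    (by rw [← map_pow, hζQ.pow_eq_one, map_one]) (bc K₀ t₀) W ht hW
  have hτ : τ (AdjoinSimple.gen (FF N) (bc K₀ t₀)) = HahnSeries.C (ζ : Qb) * bc K₀ t₀ := by
    rw [hτ']
    exact congrArg (· * bc K₀ t₀) (coe_algebraMap_FF (N := N) (ζ : Qb))
  obtain ⟨κ, k₁, f', ϖ, hκ0, hϖ0, hf', hf'fix, hk₁fix, hϖg, hτf'⟩ :=
    cover_core hp K₀ (ζ : Qb) ζ.2 hζQ (bc K₀ t₀) (fun g hg => gact_bc K₀ g hg t₀) W ht τ hτ f hflc
      hford b hb
  obtain ⟨a, A, ha1, ha2, hA⟩ := exists_model_repr hp K₀ t₀ W ht hW (f' : LL) f'.2 hf'fix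
  obtain ⟨c, C', hc1, hc2, hC⟩ := exists_model_repr hp K₀ t₀ W ht hW (k₁ : LL) k₁.2 hk₁fix
  obtain ⟨e, he⟩ := exists_repr' hp _ W ht (κ : LL) κ.2
  have hβmem : ϖ ^ p ∈ K₀ := by
    refine mem_of_fixed K₀ _ fun g hg => ?_
    have h1 := hϖg g hg
    have h2 : (g ϖ * (ζ : Qb) ^ b g) ^ p = ϖ ^ p := by rw [h1]
    rw [mul_pow, ← pow_mul, mul_comm (b g) p, pow_mul, hζQ.pow_eq_one, one_pow, mul_one] at h2
    rw [map_pow, h2]
  have hbcsum : ∀ (u : ℕ → LaurentSeries K₀) (U : ℕ → FF N), (∀ i, bc K₀ (u i) = (U i : LL)) →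
      ∀ s : LaurentSeries K₀, bc K₀ (∑ i ∈ Finset.range p, u i * s ^ i)
        = ∑ i ∈ Finset.range p, (U i : LL) * (bc K₀ s) ^ i := by
    intro u U hu s
    rw [map_sum]
    refine Finset.sum_congr rfl fun i _ => ?_
    rw [map_mul, map_pow, hu]
  refine ⟨a, c, ⟨ϖ ^ p, hβmem⟩, ϖ, e, ha1, hc1, ?_, rfl, hϖg, ?_, ?_, ?_⟩
  · intro h
    exact pow_ne_zero p hϖ0 (congrArg Subtype.val h)
  · rw [← he]
    exact fun h => hκ0 (Subtype.ext h)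
  · rw [hbcsum a A ha2, ← hA, ← he, hf']
  · apply bc_injective K₀
    rw [map_mul, map_mul, map_pow, hbcsum a A ha2, hbcsum a A ha2, hbcsum c C' hc2, ← hA, ← hC,
      map_mul, bc_C, bc_C, ← tau_eq_sum hp (ζ : Qb) _ W ht τ hτ A f' hA, hτf']

/-- **The case `b = 0`**: a class in `F^× / F^×p` fixed by `Γ = Gal(ℚ̄/K₀)` (with `p ∣ ord_q`) has a `K₀`-rational
representative which is a `p`-th power in `K₀((q))`. -/
theorem exists_fixed_rep [NeZero N] (hp : p.Prime) (K₀ : IntermediateField ℚ Qb)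
    (f : FF N) (hflc : (f : LL).leadingCoeff = 1) (hford : (p : ℤ) ∣ (f : LL).order)
    (hb : ∀ g : GQ, (∀ x ∈ K₀, g x = x) → ∃ k : FF N, gact g (f : LL) = f * (k : LL) ^ p) :
    ∃ (W₀ t₀ : LaurentSeries K₀) (κ : FF N), W₀ ∈ modularFunctionFieldFullC K₀ N ∧ t₀ ^ p = W₀ ∧
      κ ≠ 0 ∧ bc K₀ W₀ = f * (κ : LL) ^ p := by
  classical
  obtain ⟨ζ, hζ⟩ : ∃ ζ : Qb, IsPrimitiveRoot ζ p := by
    have : NeZero (p : Qb) := ⟨Nat.cast_ne_zero.2 hp.ne_zero⟩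
    have : NeZero p := ⟨hp.ne_zero⟩
    exact HasEnoughRootsOfUnity.exists_primitiveRoot Qb p
  set Γ : Subgroup GQ := K₀.fixingSubgroup with hΓ
  have hΓmem : ∀ g : GQ, g ∈ Γ ↔ ∀ x ∈ K₀, g x = x :=
    fun g => IntermediateField.mem_fixingSubgroup_iff K₀ g
  obtain ⟨φ, hφp, hφlc⟩ := exists_root_lc_one hp.pos (f : LL) hflc hford
  have hφ0 : φ ≠ 0 := by
    rintro rfl
    rw [HahnSeries.leadingCoeff_zero] at hφlc
    exact zero_ne_one hφlc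
  have hgφ0 : ∀ g : GQ, gact g φ ≠ 0 := fun g => (map_ne_zero_iff _ (gact_injective g)).mpr hφ0
  have key1 : ∀ g ∈ Γ, ∃ k' : FF N, gact g φ = φ * (k' : LL) := by
    intro g hg
    obtain ⟨k, hk⟩ := hb g ((hΓmem g).mp hg)
    have h1 : (gact g φ) ^ p = (φ * (k : LL)) ^ p := by
      rw [← map_pow, hφp, hk, mul_pow, hφp]
    have hne : φ * (k : LL) ≠ 0 := by
      intro h0
      rw [h0, zero_pow hp.ne_zero] at h1
      exact pow_ne_zero p (hgφ0 g) h1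
    obtain ⟨i, hi⟩ := eq_zeta_pow_mul hp.pos ζ hζ _ _ hne h1
    refine ⟨algebraMap Qb (FF N) (ζ ^ i) * k, ?_⟩
    rw [hi, IntermediateField.coe_mul, coe_algebraMap_FF]
    ring
  have hfin := finite_orbit_root N hp f φ hφp hφlc Γ
  obtain ⟨hψfix, hψ0⟩ := orbit_sum Γ φ hφlc hfin
  set ψ : LL := ∑ x ∈ hfin.toFinset, x with hψ
  have hκmem : ψ * φ⁻¹ ∈ modularFunctionFieldBar N := by
    rw [hψ, Finset.sum_mul]
    refine sum_mem fun x hx => ?_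
    obtain ⟨g, hg, rfl⟩ := (hfin.mem_toFinset).mp hx
    obtain ⟨k', hk'⟩ := key1 g hg
    rw [hk', mul_comm φ, mul_assoc, mul_inv_cancel₀ hφ0, mul_one]
    exact k'.2
  obtain ⟨t₀, ht₀⟩ := exists_of_fixed K₀ ψ fun g hg => hψfix g ((hΓmem g).mpr hg)
  have hf'ψ : (f : LL) * (ψ * φ⁻¹) ^ p = ψ ^ p := by
    rw [mul_pow, inv_pow, hφp]
    have hf0 : (f : LL) ≠ 0 := by rw [← hφp]; exact pow_ne_zero p hφ0
    field_simp
  have hbc : bc K₀ (t₀ ^ p) = (f : LL) * (ψ * φ⁻¹) ^ p := by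
    rw [map_pow, ht₀, hf'ψ]
  refine ⟨t₀ ^ p, t₀, ⟨_, hκmem⟩, ?_, rfl, ?_, hbc⟩
  · refine S33.desc K₀ N _ ?_
    rw [show coeffMap (algebraMap K₀ Qb) (t₀ ^ p) = (f : LL) * (ψ * φ⁻¹) ^ p from hbc]
    exact mul_mem f.2 (pow_mem hκmem p)
  · intro h
    exact mul_ne_zero hψ0 (inv_ne_zero hφ0) (congrArg Subtype.val h)

end Fermat.Agent.S44.Cover
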