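import Fermat.Agent.S44.Cover.Series
import Fermat.Agent.SS.GM2.Desc.IntDesc

/-!
# S44 / Cover / IntK : integrality over `K₀[t]` of series in `ℚ̄((q))`

`IntK K₀ t z` : `z ∈ ℚ̄((q))` is integral over the image of `K₀[X] → K₀((q)) → ℚ̄((q))`, `X ↦ t`.
Everything is formal (`RingHom.IsIntegralElem` API: `RingHom.IsIntegralElem.add/mul`, `RingHom.isIntegralElem_map`,
`IsIntegral.of_pow`; `f.IsIntegralElem z` is `IsIntegral R z` for the algebra structure `f.toAlgebra`).

* `IntK.of_pow` : `letI := ((bc K₀).comp (evAt t)).toAlgebra; exact IsIntegral.of_pow hm h`.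
* `intK_C` : `c` is integral over `K₀` (algebraic over `ℚ`: `(AlgebraicClosure.isAlgebraic ℚ).isAlgebraic c`, `.tower_top K₀`, `.isIntegral`): monic `p ∈ K₀[X]`
  with `eval₂ (algebraMap K₀ Qb) c p = 0`; take `p.map Polynomial.C`; `Polynomial.eval₂_map`, `Polynomial.hom_eval₂` with the ring hom `HahnSeries.C : Qb →+* LL`;
  `((bc K₀).comp (evAt t)).comp Polynomial.C = HahnSeries.C.comp (algebraMap K₀ Qb)` (ext; `bc_C'` below).
* `IntK.gact` : `(gact g).comp ((bc K₀).comp (evAt t)) = (bc K₀).comp (evAt t)` by `gact_bc`; `Polynomial.hom_eval₂`.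
* `intK_bc_iff` : `Polynomial.hom_eval₂` + `bc_injective`.
* `intK_of_Ry` : this is the `have key` in the proof of `SS.GM2.isIntegralElem_of_bar` (file `SS/GM2/Desc/IntDesc.lean`): COPY that proof (it uses `hz` only through `rw [hz]`).
* `IntK.add_pow_mul` : `(a + b)^m W = ∑ k, choose m k • (a^k b^(m-k) W)` (`add_pow`, `Finset.sum_mul`); `T_k := a^k b^(m-k) W` has
  `T_k^m = (a^m W)^k (b^m W)^(m-k)` for `k ≤ m` (`ring`-type identity: `W^m = W^k W^(m-k)`), so `T_k` is integral by `of_pow`; natural numbers are integral (`intK_C` or `map_natCast`).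
-/

set_option autoImplicit false

open AlgebraicCurve ModularCurve

namespace Fermat.Agent.S44.Cover

open Fermat.Agent.ES Fermat.Agent.Crux
open Fermat.Agent.S28 (evAt)
open Fermat.Agent.S24.FF (Ry)

variable {K₀ : IntermediateField ℚ Qb} {t : LaurentSeries K₀}

/-- `z` is integral over `K₀[t]`. -/
def IntK (K₀ : IntermediateField ℚ Qb) (t : LaurentSeries K₀) (z : LL) : Prop :=
  ((bc K₀).comp (evAt t)).IsIntegralElem z

/-! ### TASK S44/Cover-IntK-a -/

theorem IntK.add {x y : LL} (hx : IntK K₀ t x) (hy : IntK K₀ t y) : IntK K₀ t (x + y) :=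
  RingHom.IsIntegralElem.add _ hx hy

theorem IntK.mul {x y : LL} (hx : IntK K₀ t x) (hy : IntK K₀ t y) : IntK K₀ t (x * y) :=
  RingHom.IsIntegralElem.mul _ hx hy

theorem intK_zero : IntK K₀ t 0 := by
  have h := RingHom.isIntegralElem_map ((bc K₀).comp (evAt t)) (x := 0)
  rwa [map_zero] at h

theorem intK_one : IntK K₀ t 1 := by
  have h := RingHom.isIntegralElem_map ((bc K₀).comp (evAt t)) (x := 1)
  rwa [map_one] at h

theorem IntK.pow {x : LL} (hx : IntK K₀ t x) (n : ℕ) : IntK K₀ t (x ^ n) := by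
  induction n with
  | zero => rw [pow_zero]; exact intK_one
  | succ n ih => rw [pow_succ]; exact ih.mul hx

theorem IntK.sum {ι : Type*} (s : Finset ι) (x : ι → LL) (hx : ∀ i ∈ s, IntK K₀ t (x i)) :
    IntK K₀ t (∑ i ∈ s, x i) := by
  classical
  induction s using Finset.induction_on with
  | empty => rw [Finset.sum_empty]; exact intK_zero
  | insert a s ha ih =>
    rw [Finset.sum_insert ha]
    exact (hx a (Finset.mem_insert_self _ _)).add
      (ih fun i hi => hx i (Finset.mem_insert_of_mem hi))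

theorem IntK.of_pow {x : LL} {m : ℕ} (hm : 0 < m) (hx : IntK K₀ t (x ^ m)) : IntK K₀ t x := by
  let _ := ((bc K₀).comp (evAt t)).toAlgebra
  exact IsIntegral.of_pow hm hx

theorem bc_C' (c : K₀) : bc K₀ (HahnSeries.C c) = HahnSeries.C (c : Qb) := by
  ext n
  rw [coeffMap_coeff, HahnSeries.C_apply, HahnSeries.C_apply, HahnSeries.coeff_single,
    HahnSeries.coeff_single]
  split_ifs
  · rfl
  · exact map_zero _

theorem intK_C (c : Qb) : IntK K₀ t (HahnSeries.C c) := by
  have hc : IsIntegral K₀ c :=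
    (((AlgebraicClosure.isAlgebraic ℚ).isAlgebraic c).tower_top K₀).isIntegral
  obtain ⟨P, hP, h0⟩ := hc
  refine ⟨P.map Polynomial.C, hP.map _, ?_⟩
  have hcomp : ((bc K₀).comp (evAt t)).comp Polynomial.C
      = (HahnSeries.C : Qb →+* LL).comp (algebraMap K₀ Qb) := by
    ext1 a
    show bc K₀ (Polynomial.eval₂ HahnSeries.C t (Polynomial.C a)) = _
    rw [Polynomial.eval₂_C, bc_C']
    rfl
  rw [Polynomial.eval₂_map, hcomp, ← Polynomial.hom_eval₂, h0, map_zero]

theorem IntK.gact {x : LL} (g : GQ) (hg : ∀ c ∈ K₀, g c = c) (hx : IntK K₀ t x) :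
    IntK K₀ t (gact g x) := by
  obtain ⟨P, hP, h0⟩ := hx
  refine ⟨P, hP, ?_⟩
  have hcomp : (Cover.gact g).comp ((bc K₀).comp (evAt t)) = (bc K₀).comp (evAt t) := by
    refine RingHom.ext fun a => ?_
    exact gact_bc K₀ g hg _
  have h1 := Polynomial.hom_eval₂ P ((bc K₀).comp (evAt t)) (Cover.gact g) x
  rw [h0, map_zero, hcomp] at h1
  exact h1.symm

theorem intK_bc_iff (z₀ : LaurentSeries K₀) :
    IntK K₀ t (bc K₀ z₀) ↔ (evAt t).IsIntegralElem z₀ := by
  constructor
  · rintro ⟨P, hP, h0⟩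
    refine ⟨P, hP, bc_injective K₀ ?_⟩
    rw [Polynomial.hom_eval₂, map_zero]
    exact h0
  · rintro ⟨P, hP, h0⟩
    refine ⟨P, hP, ?_⟩
    rw [← Polynomial.hom_eval₂, h0, map_zero]

/-! ### TASK S44/Cover-IntK-b -/

theorem IntK.add_pow_mul {a b W : LL} {m : ℕ} (hm : 0 < m) (ha : IntK K₀ t (a ^ m * W))
    (hb : IntK K₀ t (b ^ m * W)) : IntK K₀ t ((a + b) ^ m * W) := by
  rw [add_pow, Finset.sum_mul]
  refine IntK.sum _ _ fun i hi => ?_
  have him : i ≤ m := Nat.lt_succ_iff.mp (Finset.mem_range.mp hi)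
  have hT : IntK K₀ t (a ^ i * b ^ (m - i) * W) := by
    apply IntK.of_pow hm
    have e : (a ^ i * b ^ (m - i) * W) ^ m = (a ^ m * W) ^ i * (b ^ m * W) ^ (m - i) := by
      have hW : W ^ m = W ^ i * W ^ (m - i) := by rw [← pow_add, Nat.add_sub_cancel' him]
      rw [mul_pow, mul_pow, mul_pow, mul_pow, hW, ← pow_mul, ← pow_mul, ← pow_mul, ← pow_mul,
        mul_comm i m, mul_comm (m - i) m]
      ring
    rw [e]
    exact (ha.pow i).mul (hb.pow (m - i))
  have hN : IntK K₀ t ((m.choose i : ℕ) : LL) := by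
    have := intK_C (K₀ := K₀) (t := t) ((m.choose i : ℕ) : Qb)
    rwa [map_natCast] at this
  have e2 : a ^ i * b ^ (m - i) * ((m.choose i : ℕ) : LL) * W
      = ((m.choose i : ℕ) : LL) * (a ^ i * b ^ (m - i) * W) := by ring
  rw [e2]
  exact hN.mul hT

/-! ### TASK S44/Cover-IntK-c -/

theorem intK_of_Ry (N : ℕ) (y x : FF N) (ht : bc K₀ t = (y : LL)) (h : IsIntegral (Ry Qb y) x) :
    IntK K₀ t (x : LL) := by
  show ((coeffMap (algebraMap K₀ Qb)).comp (evAt t)).IsIntegralElem (x : LaurentSeries Qb)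
  apply Fermat.Agent.SS.GM2.isIntegralElem_of_forall_valuationSubring
  intro W hW
  -- constants of `K₀`
  have hc0 : ∀ c : K₀, ((algebraMap Qb (LaurentSeries Qb)).comp (algebraMap K₀ Qb)) c ∈ W := by
    intro c
    have h1 := hW (Polynomial.C c)
    have h2 : ((coeffMap (algebraMap K₀ Qb)).comp (evAt t)) (Polynomial.C c)
        = ((algebraMap Qb (LaurentSeries Qb)).comp (algebraMap K₀ Qb)) c := by
      rw [RingHom.comp_apply, RingHom.comp_apply, algebraMap_laurentSeries_eq_single]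
      simp [evAt]
    rwa [h2] at h1
  have hy : (y : LaurentSeries Qb) ∈ W := by
    have h1 := hW Polynomial.X
    have h2 : ((coeffMap (algebraMap K₀ Qb)).comp (evAt t)) Polynomial.X
        = (y : LaurentSeries Qb) := by
      rw [RingHom.comp_apply, ← ht]
      simp [evAt]
    rwa [h2] at h1
  -- constants of `ℚ̄`
  have hc : ∀ c : Qb, algebraMap Qb (LaurentSeries Qb) c ∈ W := by
    intro c
    have halg : IsAlgebraic ℚ c := (AlgebraicClosure.isAlgebraic ℚ).isAlgebraic c
    have hint : IsIntegral K₀ c := (halg.tower_top K₀).isIntegral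
    obtain ⟨p, hp, hroot⟩ := hint
    refine Fermat.Agent.S28.IntVal.mem_of_isIntegralElem W _ hc0 ⟨p, hp, ?_⟩
    rw [← Polynomial.hom_eval₂, hroot, map_zero]
  have hRy : ∀ u : Ry Qb y,
      ((algebraMap (FF N) (LaurentSeries Qb)).comp (algebraMap (Ry Qb y) (FF N))) u ∈ W := by
    intro u
    obtain ⟨q, rfl⟩ := Fermat.Agent.S24.FF.polyToRy_surjective Qb y u
    have h1 : ((algebraMap (FF N) (LaurentSeries Qb)).comp (algebraMap (Ry Qb y) (FF N)))
        (Fermat.Agent.S24.FF.polyToRy Qb y q) = Polynomial.aeval (y : LaurentSeries Qb) q := by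
      change algebraMap (FF N) (LaurentSeries Qb) (Polynomial.aeval y q) = _
      rw [← Polynomial.aeval_algebraMap_apply]
      rfl
    rw [h1]
    exact Fermat.Agent.SS.GM2.aeval_mem_valuationSubring W hc hy q
  obtain ⟨p, hp, hroot⟩ := h
  refine Fermat.Agent.S28.IntVal.mem_of_isIntegralElem W _ hRy ⟨p, hp, ?_⟩
  have h2 := congrArg (algebraMap (FF N) (LaurentSeries Qb)) hroot
  rw [Polynomial.hom_eval₂, map_zero] at h2
  exact h2

end Fermat.Agent.S44.Cover
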