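import Mathlib

/-!
# S44 / Cover / Kummer : the Kummer extension `F(t)`, `t ^ p = W`, inside a field `L`  (Mathlib only)

`F ⊆ L` fields, `p` prime, `ζ ∈ F` with `ζ ^ p = 1`, `t ∈ L`, `t ^ p = W ∈ F`, `W` not a `p`-th power in `F`.
Then `X ^ p - C W` is irreducible (`X_pow_sub_C_irreducible_of_prime`), so it is `minpoly F t`
(`minpoly.eq_of_irreducible_of_monic`), of degree `p`.

* `exists_tau`  : the `F`-embedding `τ : F(t) → L`, `t ↦ ζ t`
  (`(IntermediateField.adjoin.powerBasis hint).lift (ζ t) _`, `PowerBasis.lift_gen`, or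
  `IntermediateField.algHomAdjoinIntegralEquiv`).
* `exists_repr` : every element of `F(t)` is `∑_{i<p} a_i t^i`
  (`IntermediateField.adjoin.powerBasis`, `PowerBasis.basis`, `PowerBasis.dim = natDegree minpoly = p`; or
  `IntermediateField.exists_eq_aeval..`/`AdjoinSimple` + `Polynomial.modByMonic`).
* `repr_unique` : the `a_i` are unique (`minpoly.degree_le_of_ne_zero` / `linearIndependent_pow`).
-/

set_option autoImplicit false

open Polynomial IntermediateField

namespace Fermat.Agent.S44.Cover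

variable {F L : Type*} [Field F] [Field L] [Algebra F L] {p : ℕ}

theorem minpoly_eq (hp : p.Prime) (t : L) (W : F) (ht : t ^ p = algebraMap F L W)
    (hW : ∀ b : F, b ^ p ≠ W) : minpoly F t = X ^ p - C W := by
  have hirr : Irreducible (X ^ p - C W : F[X]) := X_pow_sub_C_irreducible_of_prime hp hW
  have hroot : aeval t (X ^ p - C W : F[X]) = 0 := by
    rw [map_sub, map_pow, aeval_X, aeval_C, ht, sub_self]
  exact (minpoly.eq_of_irreducible_of_monic hirr hroot (monic_X_pow_sub_C W hp.ne_zero)).symm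

theorem exists_tau (hp : p.Prime) (ζ : F) (hζ : ζ ^ p = 1) (t : L) (W : F)
    (ht : t ^ p = algebraMap F L W) (hW : ∀ b : F, b ^ p ≠ W) :
    ∃ τ : F⟮t⟯ →ₐ[F] L, τ (AdjoinSimple.gen F t) = algebraMap F L ζ * t := by
  have hmin := minpoly_eq hp t W ht hW
  have hint : IsIntegral F t := by
    refine ⟨X ^ p - C W, monic_X_pow_sub_C W hp.ne_zero, ?_⟩
    rw [← aeval_def, map_sub, map_pow, aeval_X, aeval_C, ht, sub_self]
  refine ⟨(adjoin.powerBasis hint).lift (algebraMap F L ζ * t) ?_, ?_⟩
  · rw [adjoin.powerBasis_gen, minpoly_gen, hmin, map_sub, map_pow, aeval_X, aeval_C, mul_pow,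
      ← map_pow, hζ, map_one, one_mul, ht, sub_self]
  · have h := (adjoin.powerBasis hint).lift_gen (algebraMap F L ζ * t) (by
      rw [adjoin.powerBasis_gen, minpoly_gen, hmin, map_sub, map_pow, aeval_X, aeval_C, mul_pow,
        ← map_pow, hζ, map_one, one_mul, ht, sub_self])
    exact h

theorem exists_repr (hp : p.Prime) (t : L) (W : F) (ht : t ^ p = algebraMap F L W) (x : L)
    (hx : x ∈ F⟮t⟯) :
    ∃ a : ℕ → F, x = ∑ i ∈ Finset.range p, algebraMap F L (a i) * t ^ i := by
  let P : Polynomial F := X ^ p - C W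
  have hPm : P.Monic := monic_X_pow_sub_C W hp.ne_zero
  have hroot : aeval t P = 0 := by
    simp only [P, map_sub, map_pow, aeval_X, aeval_C]
    rw [ht]
    exact sub_self _
  have hint : IsIntegral F t := ⟨P, hPm, hroot⟩
  have h1 : x ∈ (F⟮t⟯).toSubalgebra := hx
  rw [adjoin_simple_toSubalgebra_of_isAlgebraic hint.isAlgebraic,
    Algebra.adjoin_singleton_eq_range_aeval] at h1
  obtain ⟨f, rfl⟩ := h1
  have hdeg : (f %ₘ P).natDegree < p := by
    have h2 := natDegree_modByMonic_lt f hPm (by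
      intro h
      have := congrArg natDegree h
      rw [natDegree_X_pow_sub_C, natDegree_one] at this
      exact hp.ne_zero this)
    rwa [natDegree_X_pow_sub_C] at h2
  refine ⟨fun i => (f %ₘ P).coeff i, ?_⟩
  have h3 : aeval t f = aeval t (f %ₘ P) := (aeval_modByMonic_eq_self_of_root hroot).symm
  show aeval t f = _
  rw [h3, aeval_eq_sum_range' hdeg]
  refine Finset.sum_congr rfl fun i _ => ?_
  rw [Algebra.smul_def]

theorem repr_unique (hp : p.Prime) (t : L) (W : F) (ht : t ^ p = algebraMap F L W)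
    (hW : ∀ b : F, b ^ p ≠ W) (a a' : ℕ → F)
    (h : ∑ i ∈ Finset.range p, algebraMap F L (a i) * t ^ i
      = ∑ i ∈ Finset.range p, algebraMap F L (a' i) * t ^ i) :
    ∀ i < p, a i = a' i := by
  let f : Polynomial F := ∑ i ∈ Finset.range p, C (a i - a' i) * X ^ i
  have hroot : aeval t f = 0 := by
    simp only [f, map_sum, map_mul, map_pow, aeval_X, aeval_C, map_sub, sub_mul,
      Finset.sum_sub_distrib]
    rw [h, sub_self]
  have hdeg : f.degree < (p : WithBot ℕ) := by
    refine (degree_sum_le _ _).trans_lt ?_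
    refine (Finset.sup_lt_iff (WithBot.bot_lt_coe p)).2 ?_
    intro i hi
    exact (degree_C_mul_X_pow_le i _).trans_lt (WithBot.coe_lt_coe.2 (Finset.mem_range.1 hi))
  have hf0 : f = 0 := by
    by_contra hne
    have h1 := minpoly.degree_le_of_ne_zero F t hne hroot
    rw [minpoly_eq hp t W ht hW, degree_X_pow_sub_C hp.pos] at h1
    exact absurd h1 (not_le.2 hdeg)
  intro i hi
  have h2 : f.coeff i = a i - a' i := by
    simp only [f, finsetSum_coeff, coeff_C_mul, coeff_X_pow]
    rw [Finset.sum_eq_single i]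
    · simp
    · intro j _ hji
      rw [if_neg (Ne.symm hji), mul_zero]
    · intro hni
      exact absurd (Finset.mem_range.2 hi) hni
  rw [hf0, coeff_zero] at h2
  exact sub_eq_zero.1 h2.symm

/-- `τ` on a representation. -/
theorem tau_repr (ζ : F) (t : L) (τ : F⟮t⟯ →ₐ[F] L)
    (hτ : τ (AdjoinSimple.gen F t) = algebraMap F L ζ * t) (a : ℕ → F) (x : F⟮t⟯)
    (hx : (x : L) = ∑ i ∈ Finset.range p, algebraMap F L (a i) * t ^ i) :
    τ x = ∑ i ∈ Finset.range p, algebraMap F L (a i) * (algebraMap F L ζ * t) ^ i := by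
  have hx' : x = ∑ i ∈ Finset.range p, algebraMap F F⟮t⟯ (a i) * AdjoinSimple.gen F t ^ i := by
    apply Subtype.ext
    rw [hx]
    simp only [AddSubmonoidClass.coe_finsetSum, MulMemClass.coe_mul, SubmonoidClass.coe_pow,
      AdjoinSimple.coe_gen]
    rfl
  rw [hx', map_sum]
  refine Finset.sum_congr rfl fun i _ => ?_
  rw [map_mul, map_pow, hτ, AlgHom.commutes]

end Fermat.Agent.S44.Cover
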